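import Fermat.Agent.DeligneSerre.X1.Basic
import Fermat.Agent.ES.Twist

/-!
# The Kummer group of a function field and the operators on `X₁(M)`

`KummerV K F n` consists of the functions all of whose orders are divisible by `n`, modulo
`n`-th powers; for an algebraically closed `K` of characteristic zero it is `Pic⁰(F)[n]`.
`IsHeckeOp M p φ T` says that `T` is the multiplicative Hecke operator at `p`: the product of the
translates of a function under the representatives of `T_p`.
-/

set_option autoImplicit false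

noncomputable section

open AlgebraicCurve ModularCurve

namespace FermatAgent.DeligneSerre.X1

section Kummer

variable (K F : Type*) [Field K] [Field F] [Algebra K F] (n : ℕ)

/-- The functions all of whose orders are divisible by `n`. -/
def kummerSel : Subgroup Fˣ where
  carrier := {y | ∀ P : Place K F, (n : ℤ) ∣ P.ord (y : F)}
  one_mem' P := by rw [Units.val_one, Place.ord_one]; exact dvd_zero _
  mul_mem' {x y} hx hy P := by
    rw [Units.val_mul, P.ord_mul x.ne_zero y.ne_zero]; exact dvd_add (hx P) (hy P)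
  inv_mem' {x} hx P := by rw [Units.val_inv_eq_inv_val, Place.ord_inv]; exact (hx P).neg_right

/-- The `n`-th powers inside `kummerSel`. -/
def kummerPow : Subgroup (kummerSel K F n) :=
  ((powMonoidHom n : Fˣ →* Fˣ).range).subgroupOf (kummerSel K F n)

/-- `{y : n ∣ ord y} / (Fˣ)ⁿ`. -/
def KummerV : Type _ := kummerSel K F n ⧸ kummerPow K F n

instance : CommGroup (KummerV K F n) :=
  inferInstanceAs (CommGroup (kummerSel K F n ⧸ kummerPow K F n))

/-- The class of a function. -/
def kummerMk : kummerSel K F n →* KummerV K F n := QuotientGroup.mk' _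

variable {K F n}

theorem kummerMk_surjective : Function.Surjective (kummerMk K F n) := QuotientGroup.mk'_surjective _

theorem kummerMk_eq_one {y : kummerSel K F n} :
    kummerMk K F n y = 1 ↔ ∃ w : Fˣ, w ^ n = (y : Fˣ) :=
  (QuotientGroup.eq_one_iff y).trans Subgroup.mem_subgroupOf

variable {K' F' : Type*} [Field K'] [Field F'] [Algebra K' F']

/-- The map induced by a homomorphism of multiplicative groups preserving `kummerSel`. -/
def kummerMap (φ : Fˣ →* F'ˣ) (h : ∀ y ∈ kummerSel K F n, φ y ∈ kummerSel K' F' n) :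
    KummerV K F n →* KummerV K' F' n :=
  QuotientGroup.map _ _ ((φ.domRestrict (kummerSel K F n)).codRestrict _ fun y => h y y.2) (by
    rintro y hy
    obtain ⟨w, hw⟩ := Subgroup.mem_subgroupOf.mp hy
    refine Subgroup.mem_comap.mpr (Subgroup.mem_subgroupOf.mpr ⟨φ w, ?_⟩)
    show φ w ^ n = φ (y : Fˣ)
    rw [← map_pow]
    exact congrArg φ hw)

theorem kummerMap_mk (φ : Fˣ →* F'ˣ) (h : ∀ y ∈ kummerSel K F n, φ y ∈ kummerSel K' F' n)
    (y : kummerSel K F n) :
    kummerMap φ h (kummerMk K F n y) = kummerMk K' F' n ⟨φ y, h y y.2⟩ := rfl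

end Kummer

local notation "Qb" => AlgebraicClosure ℚ

/-- `T` is the multiplicative Hecke operator at `p`, `φ` the diamond automorphism of `p`: in
`q ^ (1 / p)`, `(T y)(q) = (φ y)(q ^ p) * ∏_b y(ζ ^ b q ^ (1 / p))`. -/
def IsHeckeOp (M p : ℕ) [NeZero M] [NeZero p] (φ : x1Bar M ≃ₐ[Qb] x1Bar M)
    (T : (x1Bar M)ˣ →* (x1Bar M)ˣ) : Prop :=
  ∀ ζ : Qbˣ, IsPrimitiveRoot ζ p → ∀ y : (x1Bar M)ˣ,
    qExpand Qb p (((T y : (x1Bar M)ˣ) : x1Bar M) : LaurentSeries Qb) =
      qExpand Qb (p * p) ((φ (y : x1Bar M) : x1Bar M) : LaurentSeries Qb) *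
        ∏ b ∈ Finset.range p, FermatAgent.ES.qTwist (ζ ^ b) ((y : x1Bar M) : LaurentSeries Qb)

end FermatAgent.DeligneSerre.X1
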