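import Fermat.Agent.DeligneSerre.X1.LevelOf
import Fermat.Agent.ModCurve.Fun.Field
import Fermat.Agent.ModCurve.Fun.Bivariate

/-!
# Generated fields of modular functions

The field generated by `j` and a separating function with rational expansion: it contains the
expansions of all invariant functions, and its degree over the `j`-line is the index.
-/

set_option autoImplicit false

noncomputable section

open UpperHalfPlane hiding I
open Complex Filter Function Polynomial
open scoped Real Topology MatrixGroups Manifold ModularForm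

namespace FermatAgent.DeligneSerre.X1

open ModularCurve (coeffMap coeffEmb jqModC)
open FermatAgent.ModFun (cuspRing qLaurent qLaurentHom jFun polyMap coeffLin)

section BEvalOf

variable (K : Type*) [Field K]

/-- `P(X, Y) ↦ P(j, y)`. -/
def bEvalOf (y : LaurentSeries K) : K[X][X] →+* LaurentSeries K :=
  FermatAgent.ModFun.biEval (L := K) (jqModC K) y

variable {K} (y : LaurentSeries K)

theorem bEvalOf_monomial (i : ℕ) (a : K[X]) :
    bEvalOf K y (monomial i a) = aeval (jqModC K) a * y ^ i :=
  FermatAgent.ModFun.biEval_monomial _ _ i a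

theorem coeffMap_bEvalOf {L : Type*} [Field L] (f : K →+* L) (P : K[X][X]) :
    coeffMap f (bEvalOf K y P) = bEvalOf L (coeffMap f y) (P.map (mapRingHom f)) := by
  induction P using Polynomial.induction_on' with
  | add p q hp hq => simp only [map_add, Polynomial.map_add, hp, hq]
  | monomial i a =>
    rw [Polynomial.map_monomial, bEvalOf_monomial, bEvalOf_monomial, map_mul, map_pow]
    congr 1
    rw [coe_mapRingHom]
    induction a using Polynomial.induction_on' with
    | add a b ha hb => simp only [map_add, Polynomial.map_add, ha, hb]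
    | monomial n c =>
      rw [Polynomial.map_monomial, aeval_monomial, aeval_monomial, map_mul, map_pow,
        ModularCurve.coeffMap_jqModC, ModularCurve.algebraMap_laurentSeries_eq_single,
        ModularCurve.algebraMap_laurentSeries_eq_single, ModularCurve.coeffMap_single]

theorem coeffLin_bEvalOf {L : Type*} [Field L] [Algebra K L] (φ : L →ₗ[K] K) (P : L[X][X]) :
    coeffLin φ (bEvalOf L (coeffMap (algebraMap K L) y) P) =
      bEvalOf K y (polyMap (polyMap φ.toAddMonoidHom) P) := by
  induction P using Polynomial.induction_on' with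
  | add p q hp hq => simp only [map_add, hp, hq]
  | monomial i a =>
    rw [FermatAgent.ModFun.polyMap_monomial, bEvalOf_monomial, bEvalOf_monomial]
    induction a using Polynomial.induction_on' with
    | add p q hp hq => simp only [map_add, add_mul, hp, hq]
    | monomial k c =>
      rw [FermatAgent.ModFun.polyMap_monomial, aeval_monomial, aeval_monomial, mul_assoc, mul_assoc,
        ← ModularCurve.coeffMap_jqModC (algebraMap K L), ← map_pow, ← map_pow, ← map_mul,
        FermatAgent.ModFun.coeffLin_mul_coeffMap, FermatAgent.ModFun.coeffLin_algebraMap]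
      rfl

theorem bEvalOf_mem_adjoin (P : K[X][X]) :
    bEvalOf K y P ∈ Algebra.adjoin K ({jqModC K, y} : Set (LaurentSeries K)) := by
  induction P using Polynomial.induction_on' with
  | add p q hp hq => rw [map_add]; exact add_mem hp hq
  | monomial i a =>
    rw [bEvalOf_monomial]
    exact mul_mem (Algebra.adjoin_mono (Set.singleton_subset_iff.mpr (Set.mem_insert _ _))
      (aeval_mem_adjoin_singleton K _)) (pow_mem (Algebra.subset_adjoin (by simp)) i)

end BEvalOf

/-- A separating function with rational expansion. -/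
structure RatGen (Γ : Subgroup SL(2, ℤ)) where
  θ : levelRingOf Γ
  ser : LaurentSeries ℚ
  hser : qLaurent (θ : ℍ → ℂ) = coeffEmb ℂ ser
  sep : Separates θ

variable {Γ : Subgroup SL(2, ℤ)} (hT : ModularGroup.T ∈ Γ) (G : RatGen Γ)

include hT in
theorem qLaurent_aeval_pair (P : ℂ[X][X]) :
    (fun τ => (P.map (evalRingHom (jFun τ))).eval ((G.θ : ℍ → ℂ) τ)) ∈ cuspRing ∧
      qLaurent (fun τ => (P.map (evalRingHom (jFun τ))).eval ((G.θ : ℍ → ℂ) τ)) =
        bEvalOf ℂ (coeffEmb ℂ G.ser) P := by
  let jW : cuspRing := ⟨jFun, FermatAgent.ModFun.jFun_mem_cuspRing⟩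
  let θW : cuspRing := ⟨G.θ, levelRingOf_le_cuspRing hT G.θ.2⟩
  let Ψ : ℂ[X][X] →+* cuspRing := eval₂RingHom (aeval jW : ℂ[X] →ₐ[ℂ] cuspRing).toRingHom θW
  have h1 : ∀ τ, ((Pi.evalRingHom (fun _ : ℍ => ℂ) τ).comp cuspRing.val.toRingHom).comp Ψ
      = (evalRingHom ((G.θ : ℍ → ℂ) τ)).comp (mapRingHom (evalRingHom (jFun τ))) := by
    intro τ
    refine Polynomial.ringHom_ext (fun p => ?_) (by simp [Ψ, θW])
    simp only [RingHom.comp_apply, coe_mapRingHom, Polynomial.map_C, Ψ, coe_eval₂RingHom, eval₂_C]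
    induction p using Polynomial.induction_on' with
    | add a b ha hb => simp only [map_add] at ha hb ⊢; rw [ha, hb]
    | monomial n a => simp [jW]
  have h2 : qLaurentHom.toRingHom.comp Ψ = bEvalOf ℂ (coeffEmb ℂ G.ser) := by
    refine Polynomial.ringHom_ext (fun p => ?_) ?_
    · rw [RingHom.comp_apply, ← Polynomial.monomial_zero_left, bEvalOf_monomial, pow_zero, mul_one,
        Polynomial.monomial_zero_left]
      simp only [Ψ, coe_eval₂RingHom, eval₂_C]
      show qLaurentHom (aeval jW p) = _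
      rw [← aeval_algHom_apply]
      simp [jW, FermatAgent.ModFun.qLaurent_jFun]
    · rw [RingHom.comp_apply, show Ψ X = θW by simp [Ψ],
        show (X : ℂ[X][X]) = monomial 1 1 from (monomial_one_one_eq_X).symm, bEvalOf_monomial]
      simpa [θW] using G.hser
  have he : ((Ψ P : cuspRing) : ℍ → ℂ)
      = fun τ => (P.map (evalRingHom (jFun τ))).eval ((G.θ : ℍ → ℂ) τ) :=
    funext fun τ => RingHom.congr_fun (h1 τ) P
  rw [← he]
  exact ⟨(Ψ P).2, RingHom.congr_fun h2 P⟩

/-- The field over `L` generated by `j` and the series of `θ`. -/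
def genField (L : Type*) [Field L] [Algebra ℚ L] : IntermediateField L (LaurentSeries L) :=
  IntermediateField.adjoin L {jqModC L, coeffEmb L G.ser}

variable [Fintype (SL(2, ℤ) ⧸ Γ)]

include hT in
/-- The expansions of invariant functions lie in the field generated by `j` and `θ`. -/
theorem qLaurent_mem_genField {f : ℍ → ℂ} (hf : f ∈ levelRingOf Γ) :
    qLaurent f ∈ genField G ℂ := by
  obtain ⟨P, R, hR, hD0, hfd⟩ := exists_lagrange_div G.θ G.sep ⟨f, hf⟩
  obtain ⟨hP1, hP2⟩ := qLaurent_aeval_pair hT G P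
  obtain ⟨hR1, hR2⟩ := qLaurent_aeval_pair hT G R
  let q : cuspRing := ⟨_, hR1⟩
  have hq0 : bEvalOf ℂ (coeffEmb ℂ G.ser) R ≠ 0 := by
    intro h0
    rw [← hR2] at h0
    have := congrArg (fun z : cuspRing => (z : ℍ → ℂ))
      (FermatAgent.ModFun.qLaurentHom_injective (a₁ := q) (a₂ := 0) (h0.trans (map_zero _).symm))
    exact hD0 (Subtype.ext (funext fun τ => (hR τ).symm.trans (congrFun this τ)))
  have hfq : qLaurent f * bEvalOf ℂ (coeffEmb ℂ G.ser) R = bEvalOf ℂ (coeffEmb ℂ G.ser) P := by
    rw [← hR2, ← hP2, ← FermatAgent.ModFun.qLaurentHom_apply ⟨f, levelRingOf_le_cuspRing hT hf⟩,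
      ← FermatAgent.ModFun.qLaurentHom_apply ⟨_, hR1⟩, ← FermatAgent.ModFun.qLaurentHom_apply ⟨_, hP1⟩,
      ← map_mul]
    refine congrArg _ (Subtype.ext (funext fun τ => ?_))
    show f τ * (R.map (evalRingHom (jFun τ))).eval ((G.θ : ℍ → ℂ) τ) =
      (P.map (evalRingHom (jFun τ))).eval ((G.θ : ℍ → ℂ) τ)
    rw [hR τ]
    exact hfd τ
  rw [eq_div_of_mul_eq hq0 hfq]
  exact div_mem (IntermediateField.algebra_adjoin_le_adjoin _ _ (bEvalOf_mem_adjoin _ P))
    (IntermediateField.algebra_adjoin_le_adjoin _ _ (bEvalOf_mem_adjoin _ R))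

include hT in
/-- A rational series which is the expansion of an invariant function lies in the field over
`ℚ`. -/
theorem mem_genField_rat {f : ℍ → ℂ} (hf : f ∈ levelRingOf Γ) {y : LaurentSeries ℚ}
    (hy : qLaurent f = coeffEmb ℂ y) : y ∈ genField G ℚ := by
  have hgen : genField G ℚ = IntermediateField.adjoin ℚ {jqModC ℚ, G.ser} := by
    rw [genField]
    congr
  rw [hgen]
  refine FermatAgent.ModFun.mem_adjoin_of_coeffMap_mem (L := ℂ) ?_
  rw [Set.image_pair, ModularCurve.coeffMap_jqModC]
  have h := qLaurent_mem_genField hT G hf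
  rw [hy] at h
  exact h

include hT in
theorem eq_zero_of_bEvalOf_complex {P : ℂ[X][X]}
    (hdeg : P.natDegree < Fintype.card (SL(2, ℤ) ⧸ Γ))
    (h : bEvalOf ℂ (coeffEmb ℂ G.ser) P = 0) : P = 0 := by
  obtain ⟨hm, he⟩ := qLaurent_aeval_pair hT G P
  refine eq_zero_of_eval_separating G.θ G.sep hdeg fun τ => ?_
  have h0 : (⟨_, hm⟩ : cuspRing) = 0 := FermatAgent.ModFun.qLaurentHom_injective (by
    rw [FermatAgent.ModFun.qLaurentHom_apply, he, h, map_zero])
  exact congrFun (congrArg Subtype.val h0) τ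

include hT in
theorem eq_zero_of_bEvalOf {L : Type*} [Field L] [Algebra ℚ L] {P : L[X][X]}
    (hdeg : P.natDegree < Fintype.card (SL(2, ℤ) ⧸ Γ))
    (h : bEvalOf L (coeffEmb L G.ser) P = 0) : P = 0 := by
  have hrat : ∀ Q : ℚ[X][X], Q.natDegree < Fintype.card (SL(2, ℤ) ⧸ Γ) →
      bEvalOf ℚ G.ser Q = 0 → Q = 0 := fun Q hQ h0 => by
    refine Polynomial.map_injective (mapRingHom (algebraMap ℚ ℂ))
      (Polynomial.map_injective (algebraMap ℚ ℂ) (algebraMap ℚ ℂ).injective) ?_
    rw [Polynomial.map_zero]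
    refine eq_zero_of_bEvalOf_complex hT G (natDegree_map_le.trans_lt hQ) ?_
    rw [coeffEmb, ← coeffMap_bEvalOf, h0, map_zero]
  ext i k
  rw [coeff_zero, coeff_zero]
  by_contra hc
  obtain ⟨φ, hφ⟩ := FermatAgent.ModFun.exists_functional_ne_zero (K := ℚ) hc
  have h0 : polyMap (polyMap φ.toAddMonoidHom) P = 0 :=
    hrat _ ((FermatAgent.ModFun.natDegree_polyMap_le _ _).trans_lt hdeg)
      (by rw [← coeffLin_bEvalOf, ← coeffEmb, h, map_zero])
  exact hφ (by simpa using congrArg (fun Q => (Q.coeff i).coeff k) h0)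

include hT in
theorem exists_equation_rat :
    ∃ Φ : ℚ[X][X], Φ.Monic ∧ Φ.natDegree = Fintype.card (SL(2, ℤ) ⧸ Γ) ∧
      bEvalOf ℚ G.ser Φ = 0 := by
  obtain ⟨Φ, hm, hd, hΦ⟩ := exists_equationOf G.θ
  obtain ⟨φ, hφ⟩ := FermatAgent.ModFun.exists_functional_one (K := ℚ) (L := ℂ)
  set n := Fintype.card (SL(2, ℤ) ⧸ Γ)
  set Φ' := polyMap (polyMap φ.toAddMonoidHom) Φ
  have hdle : Φ'.natDegree ≤ n := hd ▸ FermatAgent.ModFun.natDegree_polyMap_le _ _
  have hc : Φ'.coeff n = 1 := by
    ext k
    rw [FermatAgent.ModFun.coeff_polyMap, FermatAgent.ModFun.coeff_polyMap, ← hd, coeff_natDegree,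
      hm.leadingCoeff, coeff_one, coeff_one]
    have := hφ 1
    rw [map_one] at this
    split_ifs <;> simp [this]
  refine ⟨Φ', monic_of_natDegree_le_of_coeff_eq_one _ hdle hc,
    le_antisymm hdle (le_natDegree_of_ne_zero (by simp [hc])), ?_⟩
  rw [← coeffLin_bEvalOf, ← coeffEmb]
  obtain ⟨hmem, he⟩ := qLaurent_aeval_pair hT G Φ
  have h0 : (⟨_, hmem⟩ : cuspRing) = 0 := Subtype.ext (funext fun τ => by
    show (Φ.map (evalRingHom (jFun τ))).eval ((G.θ : ℍ → ℂ) τ) = 0
    rw [hΦ, eval_prod, Finset.prod_eq_zero (Finset.mem_univ ((1 : SL(2, ℤ)) : SL(2, ℤ) ⧸ Γ))]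
    simp [conjOf_one G.θ.2])
  rw [← he, ← FermatAgent.ModFun.qLaurentHom_apply ⟨_, hmem⟩, h0, map_zero, map_zero]

variable (L : Type*) [Field L] [Algebra ℚ L]

/-- `j` in the field. -/
def jGen : genField G L := ⟨jqModC L, IntermediateField.subset_adjoin _ _ (by simp)⟩

/-- `θ` in the field. -/
def thetaGen : genField G L :=
  ⟨coeffEmb L G.ser, IntermediateField.subset_adjoin _ _ (by simp)⟩

omit [Fintype (SL(2, ℤ) ⧸ Γ)] in
theorem coe_biEval_gen (P : L[X][X]) :
    ((FermatAgent.ModFun.biEval (jGen G L) (thetaGen G L) P : genField G L) : LaurentSeries L) =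
      bEvalOf L (coeffEmb L G.ser) P := by
  induction P using Polynomial.induction_on' with
  | add p q hp hq => simp [hp, hq]
  | monomial i a =>
    rw [FermatAgent.ModFun.biEval_monomial, bEvalOf_monomial, MulMemClass.coe_mul,
      SubmonoidClass.coe_pow]
    congr 1
    exact (aeval_algHom_apply (IntermediateField.val _) (jGen G L) a).symm

include hT in
/-- The degree over the `j`-line is the index. -/
theorem finrank_adjoin_jGen :
    Module.finrank (IntermediateField.adjoin L {jGen G L}) (genField G L) = Γ.index := by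
  obtain ⟨Φ, hm, hd, h0⟩ := exists_equation_rat hT G
  have hgen : IntermediateField.adjoin L ({jGen G L, thetaGen G L} : Set (genField G L)) = ⊤ := by
    refine IntermediateField.map_injective (IntermediateField.val _) ?_
    rw [IntermediateField.adjoin_map, Set.image_pair, ← AlgHom.fieldRange_eq_map,
      IntermediateField.fieldRange_val]
    rfl
  rw [Subgroup.index, Nat.card_eq_fintype_card]
  refine FermatAgent.ModFun.finrank_of_noRelation (Φ.map (mapRingHom (algebraMap ℚ L))) (hm.map _)
    ((hm.natDegree_map _).trans hd) ?_ hgen fun P hP h =>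
    eq_zero_of_bEvalOf hT G hP (by rw [← coe_biEval_gen G L, h]; rfl)
  refine Subtype.ext ((coe_biEval_gen G L _).trans ?_)
  rw [coeffEmb, ← coeffMap_bEvalOf, h0, map_zero]
  rfl

end FermatAgent.DeligneSerre.X1
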