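import Fermat.Agent.DeligneSerre.X1.Gens
import Fermat.Agent.DeligneSerre.X1.GenField
import Fermat.Agent.Curve.Basics

/-!
# The function field of `X₁(M)`

The function field of `X₁(M)`: it consists of the expansions of quotients of invariant functions,
and has degree the index of `±Γ₁(M)` over the `j`-line, over any field of characteristic zero.
-/

set_option autoImplicit false
set_option linter.unusedSectionVars false
set_option synthInstance.maxHeartbeats 200000

noncomputable section

open UpperHalfPlane hiding I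
open Polynomial
open scoped MatrixGroups

namespace FermatAgent.DeligneSerre.X1

open ModularCurve (coeffMap coeffEmb laurentBaseChange jqModC jqNModC qExpand)
open FermatAgent.ModFun (qLaurent qLaurentHom cuspRing jFun jd)

variable {M : ℕ} [NeZero M]

theorem not_dvd_genIdx (i : GenIdx M) : ¬ M ∣ (i.1.1 : ℕ) ∧ ¬ M ∣ (i.1.2 : ℕ) :=
  ⟨fun h => i.2.1 (Nat.eq_zero_of_dvd_of_lt h i.1.1.2),
    fun h => i.2.2 (Nat.eq_zero_of_dvd_of_lt h i.1.2.2)⟩

theorem genFun_mod (a b : ℕ) : genFun M a b = genFun M (a % M) (b % M) := by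
  funext τ
  have h : ∀ c : ℕ, (M : ℤ) ∣ (c : ℤ) - ((c % M : ℕ) : ℤ) := fun c => by
    push_cast
    exact Int.dvd_self_sub_emod
  exact formFun_congr (h a) (by simp) (h b) (by simp) _

theorem jd_mem_levelRingOf (d : ℕ) [NeZero d] (hd : d ∣ M) : jd d ∈ levelRingOf (gam M) := by
  have h := FermatAgent.ModFun.jd_mem_levelRing (N := M) hd
  exact ⟨h.1, fun γ hγ => h.2.1 γ (gam_le_gamma0 M hγ), h.2.2⟩

/-- The index of `j (M τ)` and of the `genFun`. -/
abbrev SepIdx (M : ℕ) : Type := Option (GenIdx M)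

/-- `j (M τ)` and the `genFun`, as invariant functions. -/
def sepFun : SepIdx M → levelRingOf (gam M)
  | none => ⟨jd M, jd_mem_levelRingOf M dvd_rfl⟩
  | some i => ⟨genFun M i.1.1 i.1.2,
      genFun_mem_levelRingOf (not_dvd_genIdx i).1 (not_dvd_genIdx i).2⟩

/-- Their rational series. -/
def sepSer : SepIdx M → LaurentSeries ℚ
  | none => jqNModC ℚ M
  | some i => genSer ℚ M i.1.1 i.1.2

theorem qLaurent_sepFun (i : SepIdx M) :
    qLaurent (sepFun i : ℍ → ℂ) = coeffEmb ℂ (sepSer i) := by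
  cases i with
  | none =>
    show qLaurent (jd M) = coeffEmb ℂ (jqNModC ℚ M)
    rw [FermatAgent.ModFun.qLaurent_jd, coeffEmb, ModularCurve.coeffMap_jqNModC]
    rfl
  | some i =>
    show qLaurent (genFun M i.1.1 i.1.2) = coeffEmb ℂ (genSer ℚ M i.1.1 i.1.2)
    rw [qLaurent_genFun (not_dvd_genIdx i).1 (not_dvd_genIdx i).2, coeffEmb, coeffMap_genSer]

variable (M) in
theorem exists_ratGen (hM : 5 ≤ M) :
    ∃ G : RatGen (gam M), G.ser ∈ x1FieldC ℚ M := by
  obtain ⟨m, hm⟩ := exists_separates (Γ := gam M) sepFun fun γ h => by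
    refine mem_gam_of_fix hM (fun τ => h none τ) fun a b ha hb τ => ?_
    rw [genFun_mod a b]
    exact h (some ⟨(⟨a % M, Nat.mod_lt _ (NeZero.pos M)⟩, ⟨b % M, Nat.mod_lt _ (NeZero.pos M)⟩),
      ⟨fun h0 => ha (Nat.dvd_of_mod_eq_zero h0), fun h0 => hb (Nat.dvd_of_mod_eq_zero h0)⟩⟩) τ
  refine ⟨⟨∑ i, (m i : ℂ) • sepFun i, ∑ i, m i • sepSer i, ?_, hm⟩, ?_⟩
  · let F : SepIdx M → cuspRing := fun i =>
      ⟨sepFun i, levelRingOf_le_cuspRing (T_mem_gam M) (sepFun i).2⟩
    have e : ((∑ i, (m i : ℂ) • F i : cuspRing) : ℍ → ℂ) =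
        ((∑ i, (m i : ℂ) • sepFun i : levelRingOf (gam M)) : ℍ → ℂ) := by
      simp [F]
    rw [← e, ← FermatAgent.ModFun.qLaurentHom_apply, map_sum]
    refine Eq.trans ?_ (map_sum (coeffEmb ℂ) _ _).symm
    refine Finset.sum_congr rfl fun i _ => ?_
    rw [Nat.cast_smul_eq_nsmul, map_nsmul, FermatAgent.ModFun.qLaurentHom_apply,
      show ((F i : cuspRing) : ℍ → ℂ) = (sepFun i : ℍ → ℂ) from rfl, qLaurent_sepFun, map_nsmul]
  · show (∑ i, m i • sepSer i) ∈ x1FieldC ℚ M
    refine sum_mem fun i _ => ?_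
    refine nsmul_mem (IntermediateField.subset_adjoin _ _ ?_) _
    cases i with
    | none => exact Or.inl (Or.inr rfl)
    | some i => exact Or.inr ⟨i, rfl⟩

/-- A chosen separating function of `gam M` inside the field of the generators. -/
def x1Gen (hM : 5 ≤ M) : RatGen (gam M) := (exists_ratGen M hM).choose

theorem x1Gen_ser_mem (hM : 5 ≤ M) : (x1Gen hM).ser ∈ x1FieldC ℚ M :=
  (exists_ratGen M hM).choose_spec

theorem genField_eq_x1FieldC (hM : 5 ≤ M) (L : Type*) [Field L] [Algebra ℚ L] :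
    genField (x1Gen hM) L = x1FieldC L M := by
  refine le_antisymm ?_ ?_
  · rw [genField, IntermediateField.adjoin_le_iff]
    rintro _ (rfl | rfl)
    · exact IntermediateField.subset_adjoin _ _ (Or.inl (Or.inl rfl))
    · rw [← laurentBaseChange_x1]
      exact ModularCurve.coeffEmb_mem_laurentBaseChange L (x1Gen_ser_mem hM)
  · rw [x1FieldC, IntermediateField.adjoin_le_iff, ← coeffMap_image_x1Gens (algebraMap ℚ L)]
    rintro _ ⟨x, hx, rfl⟩
    have hx' : x ∈ genField (x1Gen hM) ℚ := by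
      rcases hx with (rfl | rfl) | ⟨i, rfl⟩
      · exact IntermediateField.subset_adjoin _ _ (Or.inl rfl)
      · exact mem_genField_rat (T_mem_gam M) _ (sepFun none).2 (qLaurent_sepFun none)
      · exact mem_genField_rat (T_mem_gam M) _ (sepFun (some i)).2 (qLaurent_sepFun (some i))
    have h := ModularCurve.coeffEmb_mem_laurentBaseChange L hx'
    rw [genField, laurentBaseChange_adjoin_eq, Set.image_pair] at h
    have e1 : coeffEmb L (jqModC ℚ) = jqModC L := ModularCurve.coeffMap_jqModC _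
    have e2 : coeffEmb ℚ (x1Gen hM).ser = (x1Gen hM).ser := by ext k; simp
    rw [e1, e2] at h
    exact h

/-- The expansions of invariant functions lie in the field. -/
theorem qLaurent_mem_x1FieldC (hM : 5 ≤ M) {f : ℍ → ℂ} (hf : f ∈ levelRingOf (gam M)) :
    qLaurent f ∈ x1FieldC ℂ M :=
  genField_eq_x1FieldC hM ℂ ▸ qLaurent_mem_genField (T_mem_gam M) _ hf

/-- An invariant function with rational expansion gives an element over `ℚ`. -/
theorem mem_x1FieldC_rat (hM : 5 ≤ M) {f : ℍ → ℂ} (hf : f ∈ levelRingOf (gam M))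
    {y : LaurentSeries ℚ} (hy : qLaurent f = coeffEmb ℂ y) : y ∈ x1FieldC ℚ M :=
  genField_eq_x1FieldC hM ℚ ▸ mem_genField_rat (T_mem_gam M) _ hf hy

/-- Expansion of invariant functions, with values in the field over `ℂ`. -/
def toX1 (hM : 5 ≤ M) : levelRingOf (gam M) →ₐ[ℂ] x1FieldC ℂ M :=
  (qLaurentHom.comp (Subalgebra.inclusion (levelRingOf_le_cuspRing (T_mem_gam M)))).codRestrict
    (x1FieldC ℂ M).toSubalgebra fun f => qLaurent_mem_x1FieldC hM f.2

@[simp] theorem coe_toX1 (hM : 5 ≤ M) (f : levelRingOf (gam M)) :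
    (toX1 hM f : LaurentSeries ℂ) = qLaurent (f : ℍ → ℂ) := rfl

theorem toX1_injective (hM : 5 ≤ M) : Function.Injective (toX1 hM) := fun f g h => by
  have h1 : qLaurent (f : ℍ → ℂ) = qLaurent (g : ℍ → ℂ) := congrArg Subtype.val h
  have := FermatAgent.ModFun.qLaurentHom_injective
    (a₁ := ⟨f, levelRingOf_le_cuspRing (T_mem_gam M) f.2⟩)
    (a₂ := ⟨g, levelRingOf_le_cuspRing (T_mem_gam M) g.2⟩) h1
  exact Subtype.ext (congrArg (fun z : cuspRing => (z : ℍ → ℂ)) this)

/-- Every element of the field over `ℂ` is a quotient of invariant functions. -/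
theorem exists_toX1_div (hM : 5 ≤ M) (x : x1FieldC ℂ M) :
    ∃ a b : levelRingOf (gam M), toX1 hM b ≠ 0 ∧ x = toX1 hM a / toX1 hM b := by
  obtain ⟨r, hr, s, hs, hx⟩ := IntermediateField.mem_adjoin_iff_div.mp x.2
  let φ : levelRingOf (gam M) →ₐ[ℂ] LaurentSeries ℂ := (x1FieldC ℂ M).val.comp (toX1 hM)
  have hle : Algebra.adjoin ℂ (x1Gens ℂ M) ≤ φ.range := by
    rw [Algebra.adjoin_le_iff]
    rintro _ ((rfl | rfl) | ⟨i, rfl⟩)
    · exact ⟨⟨jd 1, jd_mem_levelRingOf 1 (one_dvd M)⟩, by
        show qLaurent (jd 1) = _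
        rw [FermatAgent.ModFun.jd_one, FermatAgent.ModFun.qLaurent_jFun]⟩
    · exact ⟨sepFun none, FermatAgent.ModFun.qLaurent_jd M⟩
    · exact ⟨sepFun (some i), qLaurent_genFun (not_dvd_genIdx i).1 (not_dvd_genIdx i).2⟩
  obtain ⟨a, rfl⟩ := hle hr
  obtain ⟨b, rfl⟩ := hle hs
  by_cases hb : φ b = 0
  · refine ⟨0, 1, by rw [map_one]; exact one_ne_zero, ?_⟩
    apply Subtype.ext
    rw [hx, show φ.toRingHom b = φ b from rfl, hb, div_zero, map_zero, zero_div, ZeroMemClass.coe_zero]
  · exact ⟨a, b, fun h => hb (congrArg Subtype.val h), Subtype.ext hx⟩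

/-- A ring homomorphism of coefficient fields maps the function field into the function field. -/
theorem coeffMap_mem_of_mem {K₁ K₂ : Type*} [Field K₁] [Field K₂] (σ : K₁ →+* K₂)
    {x : LaurentSeries K₁} (hx : x ∈ x1FieldC K₁ M) : coeffMap σ x ∈ x1FieldC K₂ M := by
  induction hx using IntermediateField.adjoin_induction with
  | mem x hx =>
    refine IntermediateField.subset_adjoin _ _ ?_
    rw [← coeffMap_image_x1Gens σ M]
    exact ⟨x, hx, rfl⟩
  | algebraMap c =>
    rw [ModularCurve.algebraMap_laurentSeries_eq_single, ModularCurve.coeffMap_single,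
      ← ModularCurve.algebraMap_laurentSeries_eq_single]
    exact IntermediateField.algebraMap_mem _ _
  | add a b _ _ ha hb => rw [map_add]; exact add_mem ha hb
  | inv a _ ha => rw [map_inv₀]; exact inv_mem ha
  | mul a b _ _ ha hb => rw [map_mul]; exact mul_mem ha hb

section Degree

variable (L : Type*) [Field L] [Algebra ℚ L]

/-- `j` in the field. -/
def x1J (M : ℕ) [NeZero M] : x1FieldC L M :=
  ⟨jqModC L, IntermediateField.subset_adjoin _ _ (Or.inl (Or.inl rfl))⟩

set_option maxHeartbeats 400000 in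
theorem finrank_adjoin_x1J (hM : 5 ≤ M) :
    Module.finrank (IntermediateField.adjoin L {x1J L M}) (x1FieldC L M) = (gam M).index := by
  have h := finrank_adjoin_jGen (T_mem_gam M) (x1Gen hM) L
  let e := IntermediateField.equivOfEq (genField_eq_x1FieldC hM L)
  have he : (IntermediateField.adjoin L {jGen (x1Gen hM) L}).map e.toAlgHom =
      IntermediateField.adjoin L {x1J L M} := by
    rw [IntermediateField.adjoin_map, Set.image_singleton]
    rfl
  rw [← h]
  exact (Algebra.finrank_eq_of_equiv_equiv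
    (((IntermediateField.adjoin L {jGen (x1Gen hM) L}).equivMap e.toAlgHom).trans
      (IntermediateField.equivOfEq he)).toRingEquiv e.toRingEquiv rfl).symm

theorem index_gam_pos (M : ℕ) [NeZero M] : 0 < (gam M).index :=
  Nat.pos_of_ne_zero Subgroup.FiniteIndex.index_ne_zero

theorem finiteDimensional_adjoin_x1J (hM : 5 ≤ M) :
    FiniteDimensional (IntermediateField.adjoin L {x1J L M}) (x1FieldC L M) :=
  Module.finite_of_finrank_pos (by rw [finrank_adjoin_x1J L hM]; exact index_gam_pos M)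

omit [Algebra ℚ L] in
theorem transcendental_x1J : Transcendental L (x1J L M) := by
  rintro ⟨p, hp, h⟩
  refine hp (FermatAgent.ModFun.aeval_jqModC_eq_zero ?_)
  rw [← show ((aeval (x1J L M) p : x1FieldC L M) : LaurentSeries L) = aeval (jqModC L) p from
    (aeval_algHom_apply (IntermediateField.val _) _ p).symm, h]
  rfl

theorem isFunctionField1_x1 (hM : 5 ≤ M) :
    FermatAgent.Curve.IsFunctionField1 L (x1FieldC L M) :=
  haveI := finiteDimensional_adjoin_x1J L hM
  FermatAgent.Curve.IsFunctionField1.of_finiteDimensional (transcendental_x1J L)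

end Degree

end FermatAgent.DeligneSerre.X1
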