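import Fermat.Agent.DeligneSerre.X1.Hecke.Field
import Fermat.Agent.DeligneSerre.X1.ES.Congruence

/-!
# Operators on the Jacobian of `X₁(M)`

`T_p` and the diamonds as operators on `(x1Bar M)ˣ`; they commute with Galois.
-/

set_option autoImplicit false

noncomputable section

namespace FermatAgent.DeligneSerre.X1

open FermatAgent.DeligneSerre.Periods (primeUnit)

local notation "Qb" => AlgebraicClosure ℚ
local notation "GQ" => AlgebraicClosure ℚ ≃ₐ[ℚ] AlgebraicClosure ℚ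

variable {M : ℕ} [NeZero M]

/-- The diamond on units. -/
def diamondUnits (d : (ZMod M)ˣ) : (x1Bar M)ˣ →* (x1Bar M)ˣ :=
  Units.map (x1BarDiamond d).toRingEquiv.toRingHom.toMonoidHom

theorem diamondUnits_x1GalUnits (d : (ZMod M)ˣ) (σ : GQ) (y : (x1Bar M)ˣ) :
    diamondUnits d (x1GalUnits M σ y) = x1GalUnits M σ (diamondUnits d y) :=
  Units.ext ((isDiamond_x1BarDiamond d).x1Gal_comm σ (y : x1Bar M))

variable {p : ℕ} [NeZero p] (hM : 5 ≤ M) (hp : p.Prime) (hpM : ¬ p ∣ M)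

/-- `T_p` on units. -/
def heckeUnits : (x1Bar M)ˣ →* (x1Bar M)ˣ := Units.map (heckeBar hM hp hpM)

theorem isHeckeOp_heckeUnits :
    IsHeckeOp M p (x1BarDiamond (primeUnit hp hpM)) (heckeUnits hM hp hpM) :=
  isHeckeOp_heckeBar hM hp hpM

theorem heckeUnits_x1GalUnits (σ : GQ) (y : (x1Bar M)ˣ) :
    heckeUnits hM hp hpM (x1GalUnits M σ y) = x1GalUnits M σ (heckeUnits hM hp hpM y) := by
  refine Units.ext (Subtype.ext ?_)
  refine (coe_heckeBar_coeffMap hM hp hpM (σ : Qb →+* Qb) (y := (y : x1Bar M)) rfl ?_).trans rfl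
  exact congrArg Subtype.val ((isDiamond_x1BarDiamond (primeUnit hp hpM)).x1Gal_comm σ (y : x1Bar M))

/-- A commuting pair on units induces a commuting pair on the Kummer group. -/
theorem x1GalV_kummerMap {n : ℕ} (σ : GQ) {f : (x1Bar M)ˣ →* (x1Bar M)ˣ}
    (hf : ∀ y ∈ kummerSel Qb (x1Bar M) n, f y ∈ kummerSel Qb (x1Bar M) n)
    (hc : ∀ y, f (x1GalUnits M σ y) = x1GalUnits M σ (f y))
    (x : KummerV Qb (x1Bar M) n) :
    x1GalV M n σ (kummerMap f hf x) = kummerMap f hf (x1GalV M n σ x) := by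
  obtain ⟨y, rfl⟩ := kummerMk_surjective x
  rw [x1GalV, kummerMap_mk, kummerMap_mk, kummerMap_mk, kummerMap_mk]
  exact congrArg _ (Subtype.ext (hc _).symm)

end FermatAgent.DeligneSerre.X1
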