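import Fermat.Agent.Igusa.Fibre.WpForm
import Fermat.Agent.Igusa.Fibre.WpFun
import Fermat.Agent.ModCurve.Fun.Level
import Fermat.Prelude.Def_ModularCurve_ArithmeticGalois
import Fermat.Prelude.Def_ModularCurve_X0ModL
import Fermat.Prelude.Def_AlgebraicCurve_DivisorClassGroup

/-!
# The curve `X₁(M)` (modulo `±1`) with rational cusp `∞`

`gam M` is `±Γ₁(M)`. Besides `j τ` and `j (M τ)` its function field is generated by
`(℘ (a τ) - ℘ (b τ)) · (E₄ E₆ / Δ) (M τ)`, the lattice being `ℤ M τ + ℤ`; their expansions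
`genSer` have integral coefficients. `x1Bar M` is the function field over `ℚ̄`, with the
coefficientwise Galois action of the Prelude.
-/

set_option autoImplicit false

noncomputable section

open scoped MatrixGroups
open CongruenceSubgroup ModularCurve UpperHalfPlane

namespace FermatAgent.DeligneSerre.X1

/-- `±Γ₁(M)`. -/
def gam (M : ℕ) : Subgroup SL(2, ℤ) where
  carrier := {γ | γ ∈ Gamma0 M ∧ (((γ 1 1 : ℤ) : ZMod M) = 1 ∨ ((γ 1 1 : ℤ) : ZMod M) = -1)}
  one_mem' := ⟨one_mem _, Or.inl (by simp)⟩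
  mul_mem' {x y} hx hy := by
    refine ⟨mul_mem hx.1 hy.1, ?_⟩
    have h := congrFun (congrFun (Matrix.SpecialLinearGroup.coe_mul x y) 1) 1
    rw [Matrix.mul_apply, Fin.sum_univ_two] at h
    have hx0 : ((x 1 0 : ℤ) : ZMod M) = 0 := Gamma0_mem.mp hx.1
    rw [h, Int.cast_add, Int.cast_mul, Int.cast_mul, hx0, zero_mul, zero_add]
    rcases hx.2 with e | e <;> rcases hy.2 with e' | e' <;> simp [e, e']
  inv_mem' {x} hx := by
    refine ⟨inv_mem hx.1, ?_⟩
    have hdet := x.det_coe
    rw [Matrix.det_fin_two] at hdet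
    have hd := congrArg (fun z : ℤ => (z : ZMod M)) hdet
    have hx0 : ((x 1 0 : ℤ) : ZMod M) = 0 := Gamma0_mem.mp hx.1
    simp only [Int.cast_sub, Int.cast_mul, hx0, mul_zero, sub_zero, Int.cast_one] at hd
    have e00 : (x⁻¹) 1 1 = x 0 0 := by
      rw [Matrix.SpecialLinearGroup.coe_inv, Matrix.adjugate_fin_two]
      rfl
    rw [e00]
    rcases hx.2 with e | e <;> rw [e] at hd
    · exact Or.inl (by simpa using hd)
    · exact Or.inr (by rw [← neg_eq_iff_eq_neg]; simpa using hd)

theorem gam_le_gamma0 (M : ℕ) : gam M ≤ Gamma0 M := fun _ h => h.1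

theorem gamma1_le_gam (M : ℕ) : Gamma1 M ≤ gam M := fun γ h => by
  obtain ⟨-, h11, h10⟩ := (Gamma1_mem M γ).mp h
  exact ⟨Gamma0_mem.mpr h10, Or.inl h11⟩

/-- The coefficients of positive index of `℘` at `(a τ, lattice ℤ M τ + ℤ)`, normalised. -/
def wpSer (M a : ℕ) : PowerSeries ℤ :=
  PowerSeries.mk fun n => if n = 0 then 0 else
    FermatAgent.Igusa.arithCoeff M (a % M) (1 : ℤ) n +
      FermatAgent.Igusa.arithCoeff M (M - a % M) (1 : ℤ) n -
        2 * FermatAgent.Igusa.arithCoeff M M (1 : ℤ) n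

/-- The expansion of the generator attached to `a, b ≢ 0`. -/
def genSer (R : Type*) [CommRing R] (M : ℕ) [NeZero M] (a b : ℕ) : LaurentSeries R :=
  HahnSeries.ofPowerSeries ℤ R ((wpSer M a - wpSer M b).map (Int.castRingHom R)) *
    qExpand R M (FermatAgent.Igusa.e46Ser R)

/-- The function with expansion `genSer ℂ M a b`. -/
def genFun (M : ℕ) [NeZero M] (a b : ℕ) : ℍ → ℂ :=
  FermatAgent.Igusa.formFun M ((a : ℤ), 0) ((b : ℤ), 0) ∘ FermatAgent.ModFun.dil M

theorem coeffMap_genSer {R S : Type*} [CommRing R] [CommRing S] (f : R →+* S) (M : ℕ) [NeZero M]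
    (a b : ℕ) : coeffMap f (genSer R M a b) = genSer S M a b := by
  rw [genSer, genSer, map_mul, ModularCurve.coeffMap_qExpand, FermatAgent.Igusa.coeffMap_e46Ser,
    coeffMap_ofPowerSeries, ← RingHom.comp_apply (PowerSeries.map f), ← PowerSeries.map_comp,
    RingHom.ext_int (f.comp (Int.castRingHom R)) (Int.castRingHom S)]

/-- Pairs of indices of generators. -/
abbrev GenIdx (M : ℕ) : Type := {p : Fin M × Fin M // (p.1 : ℕ) ≠ 0 ∧ (p.2 : ℕ) ≠ 0}

/-- The generators: `j τ`, `j (M τ)` and the `genSer`. -/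
def x1Gens (R : Type*) [CommRing R] (M : ℕ) [NeZero M] : Set (LaurentSeries R) :=
  {jqModC R, jqNModC R M} ∪ Set.range fun i : GenIdx M => genSer R M i.1.1 i.1.2

theorem coeffMap_image_x1Gens {R S : Type*} [CommRing R] [CommRing S] (f : R →+* S) (M : ℕ)
    [NeZero M] : coeffMap f '' x1Gens R M = x1Gens S M := by
  rw [x1Gens, x1Gens, Set.image_union, Set.image_pair, coeffMap_jqModC, coeffMap_jqNModC,
    ← Set.range_comp]
  simp only [Function.comp_def, coeffMap_genSer]

/-- The function field of `X₁(M)` over any field, as series in `q`. -/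
def x1FieldC (K : Type*) [Field K] (M : ℕ) [NeZero M] :
    IntermediateField K (LaurentSeries K) :=
  IntermediateField.adjoin K (x1Gens K M)

/-- Over `ℚ̄`, in the form carrying the Galois action of the Prelude. -/
abbrev x1Bar (M : ℕ) [NeZero M] :
    IntermediateField (AlgebraicClosure ℚ) (LaurentSeries (AlgebraicClosure ℚ)) :=
  laurentBaseChange (AlgebraicClosure ℚ) (x1FieldC ℚ M)

theorem laurentBaseChange_adjoin_eq (L : Type*) [Field L] [Algebra ℚ L]
    (S : Set (LaurentSeries ℚ)) :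
    laurentBaseChange L (IntermediateField.adjoin ℚ S) =
      IntermediateField.adjoin L (coeffEmb L '' S) := by
  refine le_antisymm ?_ ?_
  · rw [laurentBaseChange, IntermediateField.adjoin_le_iff]
    rintro _ ⟨x, hx, rfl⟩
    rw [SetLike.mem_coe] at hx ⊢
    induction hx using IntermediateField.adjoin_induction with
    | mem x hx => exact IntermediateField.subset_adjoin _ _ ⟨x, hx, rfl⟩
    | algebraMap c =>
      rw [ModularCurve.algebraMap_laurentSeries_eq_single, coeffEmb, coeffMap_single,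
        ← ModularCurve.algebraMap_laurentSeries_eq_single]
      exact IntermediateField.algebraMap_mem _ _
    | add a b _ _ ha hb => rw [map_add]; exact add_mem ha hb
    | inv a _ ha => rw [map_inv₀]; exact inv_mem ha
    | mul a b _ _ ha hb => rw [map_mul]; exact mul_mem ha hb
  · rw [IntermediateField.adjoin_le_iff]
    rintro _ ⟨x, hx, rfl⟩
    exact coeffEmb_mem_laurentBaseChange L (IntermediateField.subset_adjoin _ _ hx)

theorem laurentBaseChange_x1 (L : Type*) [Field L] [Algebra ℚ L] (M : ℕ) [NeZero M] :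
    laurentBaseChange L (x1FieldC ℚ M) = x1FieldC L M := by
  rw [x1FieldC, laurentBaseChange_adjoin_eq, coeffEmb, coeffMap_image_x1Gens, x1FieldC]

/-- `φ` is the diamond automorphism `f ↦ f ∘ γ`, `γ ∈ Γ₀(M)` with lower right entry `d`. -/
def IsDiamond (M : ℕ) [NeZero M] (d : (ZMod M)ˣ)
    (φ : x1Bar M ≃ₐ[AlgebraicClosure ℚ] x1Bar M) : Prop :=
  ∀ f : x1Bar M,
    ((f : LaurentSeries (AlgebraicClosure ℚ)) = jqModC _ → φ f = f) ∧
    ((f : LaurentSeries (AlgebraicClosure ℚ)) = jqNModC _ M → φ f = f) ∧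
    ∀ a b a' b' : ℕ, ¬ M ∣ a → ¬ M ∣ b → (a' : ZMod M) = (a : ZMod M) * ((d⁻¹ : (ZMod M)ˣ) : ZMod M) →
      (b' : ZMod M) = (b : ZMod M) * ((d⁻¹ : (ZMod M)ˣ) : ZMod M) →
      (f : LaurentSeries (AlgebraicClosure ℚ)) = genSer _ M a b →
        ((φ f : x1Bar M) : LaurentSeries (AlgebraicClosure ℚ)) = genSer _ M a' b'

end FermatAgent.DeligneSerre.X1
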