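import Fermat.Agent.DeligneSerre.X1.Field
import Fermat.Agent.ES.FieldEmb
import Fermat.Agent.ModCurve.Fun.BaseChange

/-!
# Diamond automorphisms

Diamond automorphisms of the function field of `X₁(M)`: `f ↦ f ∘ γ` for `γ ∈ Γ₀(M)` with lower
right entry `d`; they permute the generators, so they are defined over `ℚ`.
-/

set_option autoImplicit false
set_option linter.unusedSectionVars false
set_option synthInstance.maxHeartbeats 200000

noncomputable section

open UpperHalfPlane hiding I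
open CongruenceSubgroup
open scoped MatrixGroups

namespace FermatAgent.DeligneSerre.X1

open ModularCurve (coeffMap coeffEmb laurentBaseChange jqModC jqNModC)
open FermatAgent.ModFun (qLaurent qLaurentHom cuspRing jd)

variable {M : ℕ} [NeZero M]

/-- A matrix of `Γ₀(M)` with lower right entry `d`. -/
theorem exists_gamma0_of_unit (d : (ZMod M)ˣ) :
    ∃ γ : SL(2, ℤ), γ ∈ Gamma0 M ∧ ((γ 1 1 : ℤ) : ZMod M) = (d : ZMod M) ∧
      ((γ 0 0 : ℤ) : ZMod M) = ((d⁻¹ : (ZMod M)ˣ) : ZMod M) := by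
  have hcop : IsCoprime (M : ℤ) (((d : ZMod M).val : ℕ) : ℤ) :=
    Nat.isCoprime_iff_coprime.mpr (ZMod.val_coe_unit_coprime d).symm
  obtain ⟨γ, h0, h1⟩ := hcop.exists_SL2_row 1
  have hγ : γ ∈ Gamma0 M := Gamma0_mem.mpr (by rw [h0]; simp)
  have h11 : ((γ 1 1 : ℤ) : ZMod M) = (d : ZMod M) := by rw [h1]; simp
  refine ⟨γ, hγ, h11, ?_⟩
  have := cast_det_gamma0 hγ
  rw [h11] at this
  rw [mul_comm] at this
  exact (Units.eq_inv_of_mul_eq_one_left this)

/-- A chosen matrix for `d`. -/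
def diamondMat (d : (ZMod M)ˣ) : SL(2, ℤ) := (exists_gamma0_of_unit d).choose

theorem diamondMat_mem (d : (ZMod M)ˣ) : diamondMat d ∈ Gamma0 M :=
  (exists_gamma0_of_unit d).choose_spec.1

theorem diamondMat_apply_one_one (d : (ZMod M)ˣ) :
    ((diamondMat d 1 1 : ℤ) : ZMod M) = (d : ZMod M) :=
  (exists_gamma0_of_unit d).choose_spec.2.1

theorem diamondMat_apply_zero_zero (d : (ZMod M)ˣ) :
    ((diamondMat d 0 0 : ℤ) : ZMod M) = ((d⁻¹ : (ZMod M)ˣ) : ZMod M) :=
  (exists_gamma0_of_unit d).choose_spec.2.2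

/-- Multiplication of the indices by a unit. -/
def mulIdx (u : (ZMod M)ˣ) (i : GenIdx M) : GenIdx M :=
  ⟨(⟨(((i.1.1 : ℕ) : ZMod M) * (u : ZMod M)).val, ZMod.val_lt _⟩,
    ⟨(((i.1.2 : ℕ) : ZMod M) * (u : ZMod M)).val, ZMod.val_lt _⟩), by
    constructor <;> intro h <;> rw [ZMod.val_eq_zero, Units.mul_left_eq_zero,
      ZMod.natCast_eq_zero_iff] at h
    · exact (not_dvd_genIdx i).1 h
    · exact (not_dvd_genIdx i).2 h⟩

theorem cast_mulIdx (u : (ZMod M)ˣ) (i : GenIdx M) :
    (((mulIdx u i).1.1 : ℕ) : ZMod M) = ((i.1.1 : ℕ) : ZMod M) * (u : ZMod M) ∧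
      (((mulIdx u i).1.2 : ℕ) : ZMod M) = ((i.1.2 : ℕ) : ZMod M) * (u : ZMod M) :=
  ⟨ZMod.natCast_zmod_val _, ZMod.natCast_zmod_val _⟩

theorem genIdx_ext {i j : GenIdx M} (h1 : ((i.1.1 : ℕ) : ZMod M) = ((j.1.1 : ℕ) : ZMod M))
    (h2 : ((i.1.2 : ℕ) : ZMod M) = ((j.1.2 : ℕ) : ZMod M)) : i = j := by
  rw [ZMod.natCast_eq_natCast_iff', Nat.mod_eq_of_lt (Fin.is_lt _), Nat.mod_eq_of_lt (Fin.is_lt _)]
    at h1 h2
  exact Subtype.ext (Prod.ext (Fin.ext h1) (Fin.ext h2))

theorem mulIdx_mulIdx (u v : (ZMod M)ˣ) (i : GenIdx M) :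
    mulIdx u (mulIdx v i) = mulIdx (v * u) i := by
  refine genIdx_ext ?_ ?_
  · rw [(cast_mulIdx u _).1, (cast_mulIdx v i).1, (cast_mulIdx (v * u) i).1, Units.val_mul, mul_assoc]
  · rw [(cast_mulIdx u _).2, (cast_mulIdx v i).2, (cast_mulIdx (v * u) i).2, Units.val_mul, mul_assoc]

/-- All generators: `j`, `j (M τ)` and the `genSer`. -/
abbrev AllIdx (M : ℕ) : Type := Option (SepIdx M)

/-- The series of the generators over a field. -/
def allSer (L : Type*) [Field L] : AllIdx M → LaurentSeries L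
  | none => jqModC L
  | some none => jqNModC L M
  | some (some i) => genSer L M i.1.1 i.1.2

theorem range_allSer (L : Type*) [Field L] : Set.range (allSer (M := M) L) = x1Gens L M := by
  ext x
  constructor
  · rintro ⟨(_ | _ | i), rfl⟩
    · exact Or.inl (Or.inl rfl)
    · exact Or.inl (Or.inr rfl)
    · exact Or.inr ⟨i, rfl⟩
  · rintro ((rfl | rfl) | ⟨i, rfl⟩)
    · exact ⟨none, rfl⟩
    · exact ⟨some none, rfl⟩
    · exact ⟨some (some i), rfl⟩

/-- The action of a unit on the generators. -/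
def mulAll (u : (ZMod M)ˣ) : AllIdx M → AllIdx M :=
  Option.map (Option.map (mulIdx u))

theorem mulAll_mulAll (u v : (ZMod M)ˣ) (i : AllIdx M) :
    mulAll u (mulAll v i) = mulAll (v * u) i := by
  rcases i with _ | _ | i <;> simp [mulAll, mulIdx_mulIdx]

theorem mulAll_one (i : AllIdx M) : mulAll 1 i = i := by
  rcases i with _ | _ | i
  · rfl
  · rfl
  · refine congrArg (fun j => some (some j)) (genIdx_ext ?_ ?_)
    · rw [(cast_mulIdx 1 i).1, Units.val_one, mul_one]
    · rw [(cast_mulIdx 1 i).2, Units.val_one, mul_one]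

theorem coeffMap_allSer {L L' : Type*} [Field L] [Field L'] (f : L →+* L') (i : AllIdx M) :
    coeffMap f (allSer L i) = allSer L' i := by
  rcases i with _ | _ | i
  · exact ModularCurve.coeffMap_jqModC f
  · exact ModularCurve.coeffMap_jqNModC f M
  · exact coeffMap_genSer f M _ _

/-- The functions of the generators. -/
def allFun : AllIdx M → levelRingOf (gam M)
  | none => ⟨jd 1, jd_mem_levelRingOf 1 (one_dvd M)⟩
  | some i => sepFun i

theorem qLaurent_allFun (i : AllIdx M) : qLaurent (allFun i : ℍ → ℂ) = allSer ℂ i := by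
  rcases i with _ | _ | i
  · show qLaurent (jd 1) = _
    rw [FermatAgent.ModFun.jd_one, FermatAgent.ModFun.qLaurent_jFun]
    rfl
  · exact FermatAgent.ModFun.qLaurent_jd M
  · exact qLaurent_genFun (not_dvd_genIdx i).1 (not_dvd_genIdx i).2

/-- `f ↦ f ∘ γ` for `γ ∈ Γ₀(M)` preserves invariant functions. -/
theorem comp_smul_mem_levelRingOf {γ : SL(2, ℤ)} (hγ : γ ∈ Gamma0 M) {f : ℍ → ℂ}
    (hf : f ∈ levelRingOf (gam M)) : (fun τ => f (γ • τ)) ∈ levelRingOf (gam M) := by
  refine ⟨(mem_tameRing_levelOf hf γ).1, fun g hg τ => ?_, fun δ => ?_⟩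
  · have hconj : γ * g * γ⁻¹ ∈ gam M := by
      have hγ' : γ⁻¹ ∈ Gamma0 M := inv_mem hγ
      have h1 : γ * g * γ⁻¹ ∈ Gamma0 M := mul_mem (mul_mem hγ hg.1) hγ'
      refine ⟨h1, ?_⟩
      have e : (((γ * g * γ⁻¹ : SL(2, ℤ)) 1 1 : ℤ) : ZMod M) = ((g 1 1 : ℤ) : ZMod M) := by
        have c1 := Gamma0_mem.mp hγ
        have c2 := Gamma0_mem.mp hg.1
        have d1 := cast_det_gamma0 hγ
        simp only [Matrix.SpecialLinearGroup.coe_mul, Matrix.SpecialLinearGroup.coe_inv,
          Matrix.adjugate_fin_two, Matrix.mul_apply, Fin.sum_univ_two, Matrix.of_apply,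
          Matrix.cons_val', Matrix.cons_val_zero, Matrix.cons_val_one, Matrix.empty_val',
          Matrix.cons_val_fin_one]
        push_cast
        rw [c1, c2]
        linear_combination ((g 1 1 : ℤ) : ZMod M) * d1
      rw [e]
      exact hg.2
    have := hf.2.1 _ hconj (γ • τ)
    rwa [smul_smul, inv_mul_cancel_right, mul_smul] at this
  · simp only [smul_smul]
    exact hf.2.2 (γ * δ)

theorem allFun_smul (d : (ZMod M)ˣ) (i : AllIdx M) (τ : ℍ) :
    (allFun i : ℍ → ℂ) (diamondMat d • τ) = (allFun (mulAll d⁻¹ i) : ℍ → ℂ) τ := by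
  have h0 := diamondMat_mem d
  rcases i with _ | _ | i
  · exact FermatAgent.ModFun.jd_smul_of_mem (one_dvd _) τ
  · exact ((FermatAgent.ModFun.jd_smul_eq_iff M _).mpr h0) τ
  · exact genFun_smul h0 (by rw [(cast_mulIdx _ i).1, diamondMat_apply_zero_zero])
      (by rw [(cast_mulIdx _ i).2, diamondMat_apply_zero_zero]) τ

theorem aeval_allSer_iff_complex (d : (ZMod M)ˣ) (P : MvPolynomial (AllIdx M) ℂ) :
    MvPolynomial.aeval (allSer ℂ) P = 0 ↔
      MvPolynomial.aeval (fun i => allSer ℂ (mulAll d⁻¹ i)) P = 0 := by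
  let F : MvPolynomial (AllIdx M) ℂ →ₐ[ℂ] cuspRing := MvPolynomial.aeval fun i =>
    (⟨allFun i, levelRingOf_le_cuspRing (T_mem_gam M) (allFun i).2⟩ : cuspRing)
  let G : MvPolynomial (AllIdx M) ℂ →ₐ[ℂ] cuspRing := MvPolynomial.aeval fun i =>
    (⟨allFun (mulAll d⁻¹ i), levelRingOf_le_cuspRing (T_mem_gam M) (allFun _).2⟩ : cuspRing)
  have hF : MvPolynomial.aeval (allSer ℂ) P = qLaurentHom (F P) := by
    rw [← AlgHom.comp_apply, MvPolynomial.comp_aeval]
    congr 1
    exact MvPolynomial.algHom_ext fun i => by simp [qLaurent_allFun]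
  have hG : MvPolynomial.aeval (fun i => allSer ℂ (mulAll d⁻¹ i)) P = qLaurentHom (G P) := by
    rw [← AlgHom.comp_apply, MvPolynomial.comp_aeval]
    congr 1
    exact MvPolynomial.algHom_ext fun i => by simp [qLaurent_allFun]
  have hFG : ((G P : cuspRing) : ℍ → ℂ) =
      ((F P : cuspRing) : ℍ → ℂ) ∘ fun τ => diamondMat d • τ := by
    let pre : (ℍ → ℂ) →ₐ[ℂ] (ℍ → ℂ) :=
      { toFun := fun f => f ∘ fun τ => diamondMat d • τ
        map_one' := rfl
        map_mul' := fun _ _ => rfl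
        map_zero' := rfl
        map_add' := fun _ _ => rfl
        commutes' := fun _ => rfl }
    have e : cuspRing.val.comp G = pre.comp (cuspRing.val.comp F) :=
      MvPolynomial.algHom_ext fun i => funext fun τ => by
        simpa [F, G, pre] using (allFun_smul d i τ).symm
    exact congrArg (fun φ : MvPolynomial (AllIdx M) ℂ →ₐ[ℂ] (ℍ → ℂ) => φ P) e
  rw [hF, hG, map_eq_zero_iff _ FermatAgent.ModFun.qLaurentHom_injective,
    map_eq_zero_iff _ FermatAgent.ModFun.qLaurentHom_injective]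
  constructor
  · intro h0
    exact Subtype.ext (by rw [hFG, h0]; rfl)
  · intro h0
    refine Subtype.ext (funext fun z => ?_)
    have := congrFun hFG ((diamondMat d)⁻¹ • z)
    rw [h0, Function.comp_apply, smul_inv_smul] at this
    exact this.symm

theorem aeval_allSer_iff {L : Type*} [Field L] [Algebra ℚ L] (ι : L →ₐ[ℚ] ℂ) (d : (ZMod M)ˣ)
    (P : MvPolynomial (AllIdx M) L) :
    MvPolynomial.aeval (allSer L) P = 0 ↔
      MvPolynomial.aeval (fun i => allSer L (mulAll d⁻¹ i)) P = 0 := by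
  have key : ∀ v : AllIdx M → AllIdx M,
      coeffMap (ι : L →+* ℂ) (MvPolynomial.aeval (fun i => allSer L (v i)) P) =
        MvPolynomial.aeval (fun i => allSer ℂ (v i)) (P.map (ι : L →+* ℂ)) := fun v => by
    induction P using MvPolynomial.induction_on with
    | C a =>
      simp only [MvPolynomial.map_C, MvPolynomial.aeval_C,
        ModularCurve.algebraMap_laurentSeries_eq_single, ModularCurve.coeffMap_single]
    | add p q hp hq => simp only [map_add, hp, hq]
    | mul_X p i hp =>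
      simp only [map_mul, MvPolynomial.map_X, MvPolynomial.aeval_X, hp,
        coeffMap_allSer]
  have hinj : Function.Injective (coeffMap (ι : L →+* ℂ)) :=
    FermatAgent.Igusa.coeffMap_injective (RingHom.injective _)
  have h1 := key id
  have h2 := key (mulAll d⁻¹)
  simp only [id_eq] at h1
  exact (map_eq_zero_iff _ hinj).symm.trans
    ((iff_of_eq (by rw [h1])).trans ((aeval_allSer_iff_complex d _).trans
      ((iff_of_eq (by rw [h2])).trans (map_eq_zero_iff _ hinj))))

section Field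

variable {L : Type*} [Field L] [Algebra ℚ L] (ι : L →ₐ[ℚ] ℂ)

theorem x1FieldC_eq_adjoin_allSer :
    x1FieldC L M = IntermediateField.adjoin L (Set.range (allSer (M := M) L)) := by
  rw [range_allSer, x1FieldC]

include ι in
theorem exists_diamondHom (d : (ZMod M)ˣ) :
    ∃ φ : x1FieldC L M →ₐ[L] x1FieldC L M, ∀ (i : AllIdx M) (h : allSer L i ∈ x1FieldC L M),
      ((φ ⟨allSer L i, h⟩ : x1FieldC L M) : LaurentSeries L) = allSer L (mulAll d⁻¹ i) := by
  obtain ⟨σ₀, hσ₀⟩ := FermatAgent.ES.exists_algHom_adjoin_range (allSer L)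
    (fun i => allSer L (mulAll d⁻¹ i)) (aeval_allSer_iff ι d)
  let σ : x1FieldC L M →ₐ[L] LaurentSeries L :=
    σ₀.comp (IntermediateField.inclusion x1FieldC_eq_adjoin_allSer.le)
  have hmem : ∀ x, σ x ∈ x1FieldC L M := by
    intro x
    have hr : σ.fieldRange ≤ x1FieldC L M := by
      have e : (⊤ : IntermediateField L (x1FieldC L M)) = IntermediateField.adjoin L
          {x : x1FieldC L M | (x : LaurentSeries L) ∈ Set.range (allSer (M := M) L)} := by
        refine IntermediateField.map_injective (IntermediateField.val _) ?_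
        rw [IntermediateField.adjoin_map, ← AlgHom.fieldRange_eq_map,
          IntermediateField.fieldRange_val, x1FieldC_eq_adjoin_allSer]
        congr 1
        ext y
        constructor
        · intro hy
          exact ⟨⟨y, x1FieldC_eq_adjoin_allSer (L := L) (M := M) ▸ IntermediateField.subset_adjoin L (Set.range (allSer (M := M) L)) hy⟩,
            hy, rfl⟩
        · rintro ⟨z, hz, rfl⟩
          exact hz
      rw [AlgHom.fieldRange_eq_map, e, IntermediateField.adjoin_map, IntermediateField.adjoin_le_iff]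
      rintro _ ⟨z, ⟨i, hi⟩, rfl⟩
      have : σ z = allSer L (mulAll d⁻¹ i) := by
        rw [← hσ₀ i]
        exact congrArg σ₀ (Subtype.ext hi.symm)
      rw [this, x1FieldC_eq_adjoin_allSer]
      exact IntermediateField.subset_adjoin _ _ ⟨_, rfl⟩
    exact hr ⟨x, rfl⟩
  exact ⟨σ.codRestrict (x1FieldC L M).toSubalgebra hmem, fun i h => hσ₀ i⟩

theorem allSer_mem (L : Type*) [Field L] [Algebra ℚ L] (i : AllIdx M) :
    allSer L i ∈ x1FieldC L M := by
  rw [x1FieldC_eq_adjoin_allSer]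
  exact IntermediateField.subset_adjoin _ _ ⟨i, rfl⟩

theorem diamond_hom_ext {φ ψ : x1FieldC L M →ₐ[L] x1FieldC L M}
    (h : ∀ i, ((φ ⟨_, allSer_mem L i⟩ : x1FieldC L M) : LaurentSeries L) =
      (ψ ⟨_, allSer_mem L i⟩ : x1FieldC L M)) : φ = ψ :=
  FermatAgent.ES.algHom_ext_of_range (allSer L) x1FieldC_eq_adjoin_allSer
    fun i _ => Subtype.ext (h i)

/-- The diamond automorphism of `d` on the field over `L`. -/
def x1Diamond (d : (ZMod M)ˣ) : x1FieldC L M ≃ₐ[L] x1FieldC L M :=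
  have key : ∀ u v : (ZMod M)ˣ, u * v = 1 →
      (exists_diamondHom ι u).choose.comp (exists_diamondHom ι v).choose = AlgHom.id L _ := by
    intro u v huv
    refine diamond_hom_ext fun i => ?_
    have e : (exists_diamondHom ι v).choose ⟨_, allSer_mem L i⟩ =
        ⟨_, allSer_mem L (mulAll v⁻¹ i)⟩ :=
      Subtype.ext ((exists_diamondHom ι v).choose_spec i _)
    rw [AlgHom.comp_apply, e, (exists_diamondHom ι u).choose_spec, mulAll_mulAll, ← mul_inv_rev,
      huv, inv_one, mulAll_one]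
    rfl
  AlgEquiv.ofAlgHom (exists_diamondHom ι d).choose (exists_diamondHom ι d⁻¹).choose
    (key d d⁻¹ (mul_inv_cancel d)) (key d⁻¹ d (inv_mul_cancel d))

theorem coe_x1Diamond_allSer (d : (ZMod M)ˣ) (i : AllIdx M) (h : allSer L i ∈ x1FieldC L M) :
    ((x1Diamond ι d ⟨_, h⟩ : x1FieldC L M) : LaurentSeries L) = allSer L (mulAll d⁻¹ i) :=
  (exists_diamondHom ι d).choose_spec i h

end Field

/-- Over `ℂ` the diamond is `f ↦ f ∘ γ` on invariant functions. -/
theorem x1Diamond_toX1 (hM : 5 ≤ M) (d : (ZMod M)ˣ) (f : levelRingOf (gam M)) :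
    x1Diamond (AlgHom.id ℚ ℂ) d (toX1 hM f) =
      toX1 hM ⟨_, comp_smul_mem_levelRingOf (diamondMat_mem d) f.2⟩ := by
  let pre : levelRingOf (gam M) →ₐ[ℂ] levelRingOf (gam M) :=
    { toFun := fun f => ⟨_, comp_smul_mem_levelRingOf (diamondMat_mem d) f.2⟩
      map_one' := rfl
      map_mul' := fun _ _ => rfl
      map_zero' := rfl
      map_add' := fun _ _ => rfl
      commutes' := fun _ => rfl }
  -- both sides extend to maps of fields agreeing on the generators
  let ψ₀ : levelRingOf (gam M) →ₐ[ℂ] x1FieldC ℂ M := (toX1 hM).comp pre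
  have hinj : Function.Injective ψ₀ := fun a b hab => by
    have h := congrArg Subtype.val (toX1_injective hM hab)
    refine Subtype.ext (funext fun τ => ?_)
    have := congrFun h ((diamondMat d)⁻¹ • τ)
    simpa [pre] using this
  let : Algebra (levelRingOf (gam M)) (x1FieldC ℂ M) := (toX1 hM).toRingHom.toAlgebra
  have : IsScalarTower ℂ (levelRingOf (gam M)) (x1FieldC ℂ M) :=
    IsScalarTower.of_algebraMap_eq fun c => ((toX1 hM).commutes c).symm
  have : FaithfulSMul (levelRingOf (gam M)) (x1FieldC ℂ M) :=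
    (faithfulSMul_iff_algebraMap_injective _ _).mpr (toX1_injective hM)
  have : IsDomain (levelRingOf (gam M)) := (toX1_injective hM).isDomain (toX1 hM).toRingHom
  have : IsFractionRing (levelRingOf (gam M)) (x1FieldC ℂ M) :=
    IsFractionRing.of_field _ _ fun z => by
      obtain ⟨a, b, -, h⟩ := exists_toX1_div hM z
      exact ⟨a, b, h⟩
  let ψ : x1FieldC ℂ M →ₐ[ℂ] x1FieldC ℂ M := IsFractionRing.liftAlgHom hinj
  have hψ : ∀ g, ψ (toX1 hM g) = ψ₀ g := fun g =>
    IsFractionRing.lift_algebraMap (A := levelRingOf (gam M)) hinj g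
  have heq : (x1Diamond (AlgHom.id ℚ ℂ) d).toAlgHom = ψ := by
    refine diamond_hom_ext fun i => ?_
    have e : (⟨_, allSer_mem ℂ i⟩ : x1FieldC ℂ M) = toX1 hM (allFun i) :=
      Subtype.ext (qLaurent_allFun i).symm
    show ((x1Diamond (AlgHom.id ℚ ℂ) d ⟨_, allSer_mem ℂ i⟩ : x1FieldC ℂ M) : LaurentSeries ℂ) = _
    rw [coe_x1Diamond_allSer, e, hψ, ← qLaurent_allFun]
    refine congrArg qLaurent (funext fun τ => ?_)
    exact (allFun_smul d i τ).symm
  exact (AlgHom.congr_fun heq _).trans (hψ f)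

theorem exists_conjOfEq {K A : Type*} [Field K] [Field A] [Algebra K A]
    {E E' : IntermediateField K A} (h : E = E') (e : E' ≃ₐ[K] E') :
    ∃ e' : E ≃ₐ[K] E, ∀ (x : E) (y : E'), (x : A) = (y : A) → ((e' x : E) : A) = (e y : E') := by
  subst h
  exact ⟨e, fun x y hxy => by rw [Subtype.ext hxy]⟩

/-- The diamond on the base change to `L`. -/
def x1BaseDiamond {L : Type*} [Field L] [Algebra ℚ L] (ι : L →ₐ[ℚ] ℂ) (d : (ZMod M)ˣ) :
    ModularCurve.laurentBaseChange L (x1FieldC ℚ M) ≃ₐ[L]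
      ModularCurve.laurentBaseChange L (x1FieldC ℚ M) :=
  (exists_conjOfEq (laurentBaseChange_x1 L M) (x1Diamond ι d)).choose

theorem coe_x1BaseDiamond {L : Type*} [Field L] [Algebra ℚ L] (ι : L →ₐ[ℚ] ℂ) (d : (ZMod M)ˣ)
    (f : ModularCurve.laurentBaseChange L (x1FieldC ℚ M)) (g : x1FieldC L M)
    (h : (f : LaurentSeries L) = (g : LaurentSeries L)) :
    ((x1BaseDiamond ι d f : ModularCurve.laurentBaseChange L (x1FieldC ℚ M)) : LaurentSeries L) =
      (x1Diamond ι d g : x1FieldC L M) :=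
  (exists_conjOfEq (laurentBaseChange_x1 L M) (x1Diamond ι d)).choose_spec f g h

theorem coe_x1BaseDiamond_allSer {L : Type*} [Field L] [Algebra ℚ L] (ι : L →ₐ[ℚ] ℂ) (d : (ZMod M)ˣ)
    (i : AllIdx M) (f : ModularCurve.laurentBaseChange L (x1FieldC ℚ M))
    (h : (f : LaurentSeries L) = allSer L i) :
    ((x1BaseDiamond ι d f : ModularCurve.laurentBaseChange L (x1FieldC ℚ M)) : LaurentSeries L) =
      allSer L (mulAll d⁻¹ i) :=
  (coe_x1BaseDiamond ι d f ⟨allSer L i, allSer_mem L i⟩ h).trans (coe_x1Diamond_allSer ι d i _)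

/-- The diamond over `ℚ̄`, on `x1Bar`. -/
def x1BarDiamond (d : (ZMod M)ˣ) : x1Bar M ≃ₐ[AlgebraicClosure ℚ] x1Bar M :=
  x1BaseDiamond FermatAgent.ModFun.qbarToC d

theorem coe_x1BarDiamond_allSer (d : (ZMod M)ˣ) (i : AllIdx M) (f : x1Bar M)
    (h : (f : LaurentSeries (AlgebraicClosure ℚ)) = allSer (AlgebraicClosure ℚ) i) :
    ((x1BarDiamond d f : x1Bar M) : LaurentSeries (AlgebraicClosure ℚ)) =
      allSer (AlgebraicClosure ℚ) (mulAll d⁻¹ i) :=
  coe_x1BaseDiamond_allSer FermatAgent.ModFun.qbarToC d i f h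

theorem isDiamond_x1BarDiamond (d : (ZMod M)ˣ) : IsDiamond M d (x1BarDiamond d) := by
  intro f
  refine ⟨fun h => Subtype.ext ?_, fun h => Subtype.ext ?_, fun a b a' b' na nb ha hb h => ?_⟩
  · rw [coe_x1BarDiamond_allSer d none f h, h]; rfl
  · rw [coe_x1BarDiamond_allSer d (some none) f h, h]; rfl
  · have hser : ∀ (c e c' e' : ℕ), (c : ZMod M) = c' → (e : ZMod M) = e' →
        genSer (AlgebraicClosure ℚ) M c e = genSer (AlgebraicClosure ℚ) M c' e' :=
      fun c e c' e' h1 h2 => by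
        rw [ZMod.natCast_eq_natCast_iff'] at h1 h2
        simp only [genSer, wpSer, h1, h2]
    let i : GenIdx M := ⟨(⟨a % M, Nat.mod_lt _ (NeZero.pos M)⟩, ⟨b % M, Nat.mod_lt _ (NeZero.pos M)⟩),
      fun h0 => na (Nat.dvd_of_mod_eq_zero h0), fun h0 => nb (Nat.dvd_of_mod_eq_zero h0)⟩
    rw [coe_x1BarDiamond_allSer d (some (some i)) f
      (h.trans (hser a b i.1.1 i.1.2 (by simp [i]) (by simp [i])))]
    exact hser _ _ _ _ (by rw [(cast_mulIdx _ i).1, ha]; simp [i])
      (by rw [(cast_mulIdx _ i).2, hb]; simp [i])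

end FermatAgent.DeligneSerre.X1
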