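import Fermat.Agent.ModCurve.Fun.ModEq

/-!
# Invariant tame functions of finite level

Invariant tame functions for a subgroup of `SL₂(ℤ)` of finite index: the polynomials with roots
the conjugates of a separating function, as in the case of `Γ₀(N)`.
-/

set_option autoImplicit false

noncomputable section

open UpperHalfPlane hiding I
open Complex Filter Function Polynomial
open scoped Real Topology MatrixGroups Manifold ModularForm

namespace FermatAgent.DeligneSerre.X1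

open FermatAgent.ModFun (tameRing IsTame isTame_algebraMap cuspRing jFun evalT exists_bivariate
  bivariate_ext eval_jFun_eq_zero sum_mul_prod_erase_comp)

variable (Γ : Subgroup SL(2, ℤ))

/-- `Γ`-invariant holomorphic functions meromorphic at all cusps. -/
def levelRingOf : Subalgebra ℂ (ℍ → ℂ) where
  carrier := {f | MDiff f ∧ (∀ γ ∈ Γ, ∀ τ : ℍ, f (γ • τ) = f τ) ∧
    ∀ γ : SL(2, ℤ), IsTame fun τ : ℍ => f (γ • τ)}
  mul_mem' hf hg := ⟨hf.1.mul hg.1,
    fun γ hγ τ => by simp only [Pi.mul_apply, hf.2.1 γ hγ, hg.2.1 γ hγ],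
    fun γ => (hf.2.2 γ).mul (hg.2.2 γ)⟩
  add_mem' hf hg := ⟨hf.1.add hg.1,
    fun γ hγ τ => by simp only [Pi.add_apply, hf.2.1 γ hγ, hg.2.1 γ hγ],
    fun γ => (hf.2.2 γ).add (hg.2.2 γ)⟩
  algebraMap_mem' c := ⟨mdifferentiable_const, fun _ _ _ => rfl, fun _ => isTame_algebraMap c⟩

variable {Γ}

theorem mem_tameRing_levelOf {f : ℍ → ℂ} (hf : f ∈ levelRingOf Γ) (γ : SL(2, ℤ)) :
    (fun τ : ℍ => f (γ • τ)) ∈ tameRing :=
  ⟨FermatAgent.ModFun.mdiff_comp_smul hf.1 γ, hf.2.2 γ⟩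

theorem levelRingOf_le_cuspRing (hT : ModularGroup.T ∈ Γ) : levelRingOf Γ ≤ cuspRing :=
  fun f hf => ⟨hf.1, fun τ => by rw [← modular_T_smul, hf.2.1 _ hT], by simpa using hf.2.2 1⟩

/-- The conjugate attached to a coset. -/
def conjOf (f : ℍ → ℂ) (c : SL(2, ℤ) ⧸ Γ) (τ : ℍ) : ℂ := f (c.out⁻¹ • τ)

theorem conjOf_mk {f : ℍ → ℂ} (hf : f ∈ levelRingOf Γ) (g : SL(2, ℤ)) (τ : ℍ) :
    conjOf f (g : SL(2, ℤ) ⧸ Γ) τ = f (g⁻¹ • τ) := by
  obtain ⟨h, hh⟩ := QuotientGroup.mk_out_eq_mul Γ g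
  rw [conjOf, hh, mul_inv_rev, mul_smul, hf.2.1 _ (inv_mem h.2)]

theorem conjOf_smul {f : ℍ → ℂ} (hf : f ∈ levelRingOf Γ) (c : SL(2, ℤ) ⧸ Γ) (γ : SL(2, ℤ))
    (τ : ℍ) : conjOf f c (γ • τ) = conjOf f (γ⁻¹ • c) τ := by
  obtain ⟨g, rfl⟩ := QuotientGroup.mk_surjective c
  rw [conjOf_mk hf, MulAction.Quotient.smul_mk, smul_eq_mul, conjOf_mk hf, smul_smul, mul_inv_rev,
    inv_inv]

theorem conjOf_one {f : ℍ → ℂ} (hf : f ∈ levelRingOf Γ) (τ : ℍ) :
    conjOf f ((1 : SL(2, ℤ)) : SL(2, ℤ) ⧸ Γ) τ = f τ := by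
  simp [conjOf_mk hf]

/-- A conjugate in the domain `tameRing`. -/
def conjTame (f : levelRingOf Γ) (c : SL(2, ℤ) ⧸ Γ) : tameRing :=
  ⟨conjOf f c, mem_tameRing_levelOf f.2 _⟩

/-- `θ` separates the cosets. -/
def Separates (θ : levelRingOf Γ) : Prop := Function.Injective (conjTame θ)

/-- Finitely many functions separating the cosets jointly give a separating combination with
natural coefficients. -/
theorem exists_separates {ι : Type*} [Fintype ι] [Finite (SL(2, ℤ) ⧸ Γ)] (F : ι → levelRingOf Γ)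
    (h : ∀ γ : SL(2, ℤ), (∀ (i : ι) (τ : ℍ), (F i : ℍ → ℂ) (γ • τ) = (F i : ℍ → ℂ) τ) → γ ∈ Γ) :
    ∃ m : ι → ℕ, Separates (∑ i, (m i : ℂ) • F i) := by
  classical
  have := Fintype.ofFinite (SL(2, ℤ) ⧸ Γ)
  let e := Fintype.equivFin ι
  let P : (SL(2, ℤ) ⧸ Γ) → tameRing[X] := fun c => ∑ i, monomial (e i : ℕ) (conjTame (F i) c)
  have hP : Function.Injective P := by
    intro c c' hc
    obtain ⟨g, rfl⟩ := QuotientGroup.mk_surjective c
    obtain ⟨g', rfl⟩ := QuotientGroup.mk_surjective c'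
    rw [QuotientGroup.eq]
    refine h _ fun i τ => ?_
    have h1 := congrArg (fun p => p.coeff (e i : ℕ)) hc
    simp only [P, finsetSum_coeff, coeff_monomial] at h1
    rw [Finset.sum_eq_single i (fun j _ hj => if_neg fun hh => hj (e.injective (Fin.ext hh)))
      (by simp), Finset.sum_eq_single i (fun j _ hj => if_neg fun hh => hj (e.injective (Fin.ext hh)))
      (by simp), if_pos rfl, if_pos rfl] at h1
    have h2 := congrFun (congrArg Subtype.val h1) (g' • τ)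
    simp only [conjTame] at h2
    rw [conjOf_mk (F i).2, conjOf_mk (F i).2, inv_smul_smul, smul_smul] at h2
    exact h2
  set S : Finset (tameRing[X]) := (Finset.univ.filter fun cc : (SL(2, ℤ) ⧸ Γ) × (SL(2, ℤ) ⧸ Γ) =>
    cc.1 ≠ cc.2).image fun cc => P cc.1 - P cc.2 with hS
  set B : Finset tameRing := S.biUnion fun p => p.roots.toFinset with hB
  obtain ⟨m, hm⟩ : ∃ m : ℕ, (m : tameRing) ∉ B := by
    by_contra hcon
    simp only [not_exists, not_not] at hcon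
    have : CharZero tameRing := charZero_of_injective_algebraMap (algebraMap ℂ tameRing).injective
    exact Set.infinite_range_of_injective (f := fun m : ℕ => (m : tameRing)) Nat.cast_injective
      (B.finite_toSet.subset (by rintro _ ⟨k, rfl⟩; exact hcon k))
  refine ⟨fun i => m ^ (e i : ℕ), fun c c' hcc => ?_⟩
  by_contra hne
  refine hm (Finset.mem_biUnion.mpr ⟨P c - P c', Finset.mem_image.mpr ⟨(c, c'), ?_, rfl⟩, ?_⟩)
  · simpa using hne
  rw [Multiset.mem_toFinset, mem_roots (sub_ne_zero.mpr fun hh => hne (hP hh))]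
  have key : ∀ c₀, (P c₀).eval (m : tameRing) = conjTame (∑ i, ((m ^ (e i : ℕ) : ℕ) : ℂ) • F i) c₀ := by
    intro c₀
    simp only [P, eval_finsetSum, eval_monomial]
    refine Subtype.ext (funext fun τ => ?_)
    simp [conjTame, conjOf, Finset.sum_apply, mul_comm]
  rw [IsRoot, eval_sub, key, key, hcc, sub_self]

variable [Fintype (SL(2, ℤ) ⧸ Γ)] (θ : levelRingOf Γ)

open scoped Classical in
/-- The Lagrange interpolation polynomial of `f` at the conjugates of `θ`. -/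
def lagrangeOf (f : levelRingOf Γ) : tameRing[X] :=
  ∑ c : SL(2, ℤ) ⧸ Γ, C (conjTame f c) * ∏ c' ∈ Finset.univ.erase c, (X - C (conjTame θ c'))

open scoped Classical in
theorem map_lagrangeOf (f : levelRingOf Γ) (τ : ℍ) :
    (lagrangeOf θ f).map (evalT τ) = ∑ c : SL(2, ℤ) ⧸ Γ,
      C (conjOf (f : ℍ → ℂ) c τ) * ∏ c' ∈ Finset.univ.erase c,
        (X - C (conjOf (θ : ℍ → ℂ) c' τ)) := by
  simp [lagrangeOf, Polynomial.map_sum, Polynomial.map_prod, conjTame]

theorem map_lagrangeOf_smul (f : levelRingOf Γ) (γ : SL(2, ℤ)) (τ : ℍ) :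
    (lagrangeOf θ f).map (evalT (γ • τ)) = (lagrangeOf θ f).map (evalT τ) := by
  classical
  rw [map_lagrangeOf, map_lagrangeOf]
  simp only [conjOf_smul f.2, conjOf_smul θ.2]
  exact sum_mul_prod_erase_comp (MulAction.toPerm γ⁻¹ : Equiv.Perm (SL(2, ℤ) ⧸ Γ))
    (fun c => C (conjOf (f : ℍ → ℂ) c τ)) (fun c => X - C (conjOf (θ : ℍ → ℂ) c τ))

open scoped Classical in
/-- The derivative of the equation of `θ` at `θ`. -/
def derivOf : tameRing :=
  ∏ c' ∈ Finset.univ.erase ((1 : SL(2, ℤ)) : SL(2, ℤ) ⧸ Γ),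
    (conjTame θ ((1 : SL(2, ℤ)) : SL(2, ℤ) ⧸ Γ) - conjTame θ c')

theorem derivOf_ne_zero (hθ : Separates θ) : derivOf θ ≠ 0 := by
  classical
  exact Finset.prod_ne_zero_iff.mpr fun c hc =>
    sub_ne_zero.mpr fun h => (Finset.mem_erase.mp hc).1 (hθ h).symm

theorem eval_map_lagrangeOf (f : levelRingOf Γ) (τ : ℍ) :
    ((lagrangeOf θ f).map (evalT τ)).eval ((θ : ℍ → ℂ) τ)
      = (f : ℍ → ℂ) τ * ((derivOf θ : tameRing) : ℍ → ℂ) τ := by
  classical
  rw [map_lagrangeOf, eval_finsetSum, Finset.sum_eq_single ((1 : SL(2, ℤ)) : SL(2, ℤ) ⧸ Γ)]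
  · rw [← FermatAgent.ModFun.evalT_apply τ (derivOf θ), derivOf, map_prod]
    simp [eval_prod, conjOf_one f.2, conjTame, conjOf_one θ.2]
  · intro c _ hc
    rw [eval_mul, eval_prod, mul_eq_zero]
    right
    refine Finset.prod_eq_zero (i := ((1 : SL(2, ℤ)) : SL(2, ℤ) ⧸ Γ))
      (Finset.mem_erase.mpr ⟨hc.symm, Finset.mem_univ _⟩) ?_
    simp [conjOf_one θ.2]
  · simp

/-- Every element of the level ring is rational in `j` and a separating function. -/
theorem exists_lagrange_div (hθ : Separates θ) (f : levelRingOf Γ) :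
    ∃ P R : ℂ[X][X], (∀ τ, (R.map (evalRingHom (jFun τ))).eval ((θ : ℍ → ℂ) τ)
        = ((derivOf θ : tameRing) : ℍ → ℂ) τ) ∧
      (derivOf θ ≠ 0) ∧
      ∀ τ, (f : ℍ → ℂ) τ * ((derivOf θ : tameRing) : ℍ → ℂ) τ
        = (P.map (evalRingHom (jFun τ))).eval ((θ : ℍ → ℂ) τ) := by
  obtain ⟨P, hP⟩ := exists_bivariate _ (map_lagrangeOf_smul θ f)
  obtain ⟨R, hR⟩ := exists_bivariate _ (map_lagrangeOf_smul θ (1 : levelRingOf Γ))
  exact ⟨P, R, fun τ => by rw [hR, eval_map_lagrangeOf, OneMemClass.coe_one, Pi.one_apply, one_mul],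
    derivOf_ne_zero θ hθ, fun τ => by rw [hP, eval_map_lagrangeOf]⟩

/-- The equation of `θ`, monic of degree the index, with roots the conjugates. -/
theorem exists_equationOf :
    ∃ Φ : ℂ[X][X], Φ.Monic ∧ Φ.natDegree = Fintype.card (SL(2, ℤ) ⧸ Γ) ∧
      ∀ τ, Φ.map (evalRingHom (jFun τ)) = ∏ c : SL(2, ℤ) ⧸ Γ, (X - C (conjOf (θ : ℍ → ℂ) c τ)) := by
  let E : tameRing[X] := ∏ c : SL(2, ℤ) ⧸ Γ, (X - C (conjTame θ c))
  have hE : ∀ τ, E.map (evalT τ) = ∏ c : SL(2, ℤ) ⧸ Γ, (X - C (conjOf (θ : ℍ → ℂ) c τ)) := fun τ => by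
    simp [E, Polynomial.map_prod, conjTame]
  obtain ⟨Φ, hΦ⟩ := exists_bivariate E fun γ τ => by
    rw [hE, hE]
    refine Fintype.prod_equiv (MulAction.toPerm γ⁻¹) _ _ fun c => ?_
    rw [MulAction.toPerm_apply, conjOf_smul θ.2]
  simp only [hE] at hΦ
  set n := Fintype.card (SL(2, ℤ) ⧸ Γ)
  have hdeg : ∀ τ, (Φ.map (evalRingHom (jFun τ))).natDegree = n := fun τ => by
    rw [hΦ, natDegree_prod _ _ (fun c _ => X_sub_C_ne_zero _)]
    simp [n]
  have hlead : ∀ τ, (Φ.map (evalRingHom (jFun τ))).coeff n = 1 := fun τ => by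
    rw [← hdeg τ, coeff_natDegree, hΦ]
    exact (monic_prod_of_monic _ _ fun c _ => monic_X_sub_C _).leadingCoeff
  have h1 : Φ.coeff n = 1 := sub_eq_zero.mp <| eval_jFun_eq_zero fun τ => by
    rw [eval_sub, eval_one, sub_eq_zero]
    simpa using hlead τ
  have h2 : Φ.natDegree ≤ n := natDegree_le_iff_coeff_eq_zero.mpr fun i hi =>
    eval_jFun_eq_zero fun τ => by
      simpa using coeff_eq_zero_of_natDegree_lt (p := Φ.map (evalRingHom (jFun τ)))
        (by rw [hdeg τ]; exact hi)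
  exact ⟨Φ, monic_of_natDegree_le_of_coeff_eq_one _ h2 h1,
    le_antisymm h2 (le_natDegree_of_ne_zero (by simp [h1])), hΦ⟩

/-- There is no relation of smaller degree. -/
theorem eq_zero_of_eval_separating (hθ : Separates θ) {P : ℂ[X][X]}
    (hdeg : P.natDegree < Fintype.card (SL(2, ℤ) ⧸ Γ))
    (h : ∀ τ, (P.map (evalRingHom (jFun τ))).eval ((θ : ℍ → ℂ) τ) = 0) : P = 0 := by
  let jT : tameRing := ⟨jFun, FermatAgent.ModFun.jFun_mdiff, FermatAgent.ModFun.jFun_tame⟩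
  have hev : ∀ τ, (evalT τ).comp (aeval jT : ℂ[X] →ₐ[ℂ] tameRing).toRingHom
      = evalRingHom (jFun τ) := fun τ => by
    refine Polynomial.ringHom_ext (fun a => ?_) ?_ <;> simp [jT]
  have key : P.map (aeval jT : ℂ[X] →ₐ[ℂ] tameRing).toRingHom = 0 := by
    refine Polynomial.eq_zero_of_natDegree_lt_card_of_eval_eq_zero _ hθ
      (fun c => ?_) (natDegree_map_le.trans_lt hdeg)
    refine Subtype.ext (funext fun τ => ?_)
    change evalT τ _ = _
    rw [← Polynomial.eval₂_at_apply, ← eval_map, Polynomial.map_map, hev,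
      show evalT τ (conjTame θ c) = (θ : ℍ → ℂ) (c.out⁻¹ • τ) from rfl,
      ← FermatAgent.ModFun.jFun_smul c.out⁻¹ τ]
    exact h _
  refine bivariate_ext fun τ => ?_
  rw [← hev τ, ← Polynomial.map_map, key]
  simp

end FermatAgent.DeligneSerre.X1
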