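import Fermat.Agent.DeligneSerre.X1.Basic
import Fermat.Agent.DeligneSerre.X1.LevelOf

/-!
# Generators of the function field of `X₁(M)`

The generators of the function field of `X₁(M)` as `±Γ₁(M)`-invariant functions: invariance,
behaviour at the cusps, expansion, action of `Γ₀(M)`, and the group fixing all of them.
-/

set_option autoImplicit false

noncomputable section

open UpperHalfPlane hiding I
open Complex Filter Function CongruenceSubgroup
open scoped Real Topology MatrixGroups Manifold ModularForm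

namespace FermatAgent.DeligneSerre.X1

open ModularCurve (qExpand coeffMap coeffEmb)
open FermatAgent.ModFun (cuspRing IsTame dil coe_dil qLaurent toLS)
open FermatAgent.Igusa (formFun wpDiff pDiv pDiv_congr vecMulSL NonzeroMod qExp qExpHom wpDiffCoeff
  wpCoeff zetaRoot e46Fun e46Ser vecHeight)

variable {M : ℕ}

theorem T_mem_gam (M : ℕ) : ModularGroup.T ∈ gam M :=
  ⟨FermatAgent.ModFun.T_mem_Gamma0 M, Or.inl (by simp [ModularGroup.coe_T])⟩

theorem neg_one_mem_gam (M : ℕ) : (-1 : SL(2, ℤ)) ∈ gam M :=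
  ⟨Gamma0_mem.mpr (by simp), Or.inr (by simp)⟩

instance instFiniteIndexGam (M : ℕ) [NeZero M] : (gam M).FiniteIndex :=
  Subgroup.finiteIndex_of_le (gamma1_le_gam M)

instance instFintypeQuotGam (M : ℕ) [NeZero M] : Fintype (SL(2, ℤ) ⧸ gam M) :=
  Fintype.ofFinite _

theorem cast_det_gamma0 {γ : SL(2, ℤ)} (hγ : γ ∈ Gamma0 M) :
    ((γ 0 0 : ℤ) : ZMod M) * ((γ 1 1 : ℤ) : ZMod M) = 1 := by
  have hdet := γ.det_coe
  rw [Matrix.det_fin_two] at hdet
  have hd := congrArg (fun z : ℤ => (z : ZMod M)) hdet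
  simpa [Gamma0_mem.mp hγ] using hd

theorem dvd_cast_iff {a : ℕ} {z : ℤ} : (M : ℤ) ∣ (a : ℤ) - z ↔ ((a : ZMod M) = (z : ZMod M)) := by
  rw [← ZMod.intCast_zmod_eq_zero_iff_dvd, Int.cast_sub, sub_eq_zero, Int.cast_natCast]

theorem nonzeroMod_row {a : ℕ} (ha : ¬ M ∣ a) : NonzeroMod M ((a : ℤ), 0) :=
  fun h => ha (Int.natCast_dvd_natCast.mp h.1)

variable [NeZero M]

theorem formFun_congr {u u' w w' : ℤ × ℤ} (h1 : (M : ℤ) ∣ u.1 - u'.1) (h2 : (M : ℤ) ∣ u.2 - u'.2)
    (h3 : (M : ℤ) ∣ w.1 - w'.1) (h4 : (M : ℤ) ∣ w.2 - w'.2) (τ : ℍ) :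
    formFun M u w τ = formFun M u' w' τ := by
  simp only [formFun, wpDiff, pDiv_congr (NeZero.pos M) h1 h2, pDiv_congr (NeZero.pos M) h3 h4]

/-- `Γ₀(M)` permutes the generators through the upper left entry. -/
theorem genFun_smul {γ : SL(2, ℤ)} (hγ : γ ∈ Gamma0 M) {a b a' b' : ℕ}
    (ha : (a' : ZMod M) = (a : ZMod M) * ((γ 0 0 : ℤ) : ZMod M))
    (hb : (b' : ZMod M) = (b : ZMod M) * ((γ 0 0 : ℤ) : ZMod M)) (τ : ℍ) :
    genFun M a b (γ • τ) = genFun M a' b' τ := by
  obtain ⟨c', hc'⟩ := (ZMod.intCast_zmod_eq_zero_iff_dvd _ _).mp (Gamma0_mem.mp hγ)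
  have hdet := γ.det_coe
  rw [Matrix.det_fin_two] at hdet
  let γ' : SL(2, ℤ) := ⟨!![γ 0 0, (M : ℤ) * γ 0 1; c', γ 1 1],
    by rw [Matrix.det_fin_two_of]; linear_combination hdet + (γ 0 1) * hc'⟩
  have hd : dil M (γ • τ) = γ' • dil M τ := by
    ext1
    rw [coe_dil, coe_specialLinearGroup_apply, coe_specialLinearGroup_apply, coe_dil]
    have : ((γ 1 0 : ℤ) : ℂ) = M * c' := by exact_mod_cast hc'
    simp [γ', this]
    ring
  rw [genFun, genFun, comp_apply, comp_apply, hd, FermatAgent.Igusa.formFun_smul]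
  refine formFun_congr ?_ ?_ ?_ ?_ _ <;> simp only [vecMulSL, γ']
  · rw [dvd_sub_comm, dvd_cast_iff]
    simpa using ha
  · exact ⟨(a : ℤ) * γ 0 1, by simp; ring⟩
  · rw [dvd_sub_comm, dvd_cast_iff]
    simpa using hb
  · exact ⟨(b : ℤ) * γ 0 1, by simp; ring⟩

omit [NeZero M] in
theorem hasRoots_top : FermatAgent.Igusa.HasRoots M (⊤ : Subring ℂ) := fun _ => Subring.mem_top _

set_option maxHeartbeats 400000 in
/-- The translates of a division value form are tame. -/
theorem isTame_formFun {u w : ℤ × ℤ} (hu : NonzeroMod M u) (hw : NonzeroMod M w)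
    (δ : SL(2, ℤ)) : IsTame fun τ : ℍ => formFun M u w (δ • τ) := by
  have hF := FermatAgent.Igusa.formFun_mem_intFun hasRoots_top (Subring.mem_top _) hu hw
  have hc : (FermatAgent.Igusa.compSmul δ (formFun M u w)) ∘ dil M ∈ cuspRing :=
    (((FermatAgent.Igusa.mem_intFun M _).mp hF).2 δ).1
  have hM : (0 : ℝ) < M := Nat.cast_pos.mpr (NeZero.pos M)
  let v : ℍ → ℍ := fun τ => (⟨((M : ℝ))⁻¹, inv_pos.mpr hM⟩ : {x : ℝ // 0 < x}) • τ
  have hv : ∀ τ, dil M (v τ) = τ := fun τ => by ext; simp [v, NeZero.ne M]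
  have := hc.2.2.comp (g := v) (inv_pos.mpr hM) (fun τ => by simp [v])
  convert this using 1
  funext τ
  simp [hv]

theorem genFun_mem_levelRingOf {a b : ℕ} (ha : ¬ M ∣ a) (hb : ¬ M ∣ b) :
    genFun M a b ∈ levelRingOf (gam M) := by
  refine ⟨?_, fun γ hγ τ => ?_, fun γ => ?_⟩
  · have h1 := (((FermatAgent.Igusa.mem_intFun M (⊤ : Subring ℂ)).mp
      (FermatAgent.Igusa.formFun_mem_intFun hasRoots_top (Subring.mem_top _)
        (nonzeroMod_row ha) (nonzeroMod_row hb))).2 1).1.1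
    rwa [FermatAgent.Igusa.compSmul_one] at h1
  · obtain ⟨h0, h | h⟩ := hγ <;> have h00 := cast_det_gamma0 h0 <;> rw [h] at h00
    · rw [mul_one] at h00
      exact genFun_smul h0 (by rw [h00, mul_one]) (by rw [h00, mul_one]) τ
    · rw [mul_neg, mul_one, neg_eq_iff_eq_neg] at h00
      have h1 := genFun_smul h0 (a := a) (b := b)
        (a' := ((-(a : ℤ)) % M).toNat) (b' := ((-(b : ℤ)) % M).toNat) ?_ ?_ τ
      · rw [h1, genFun, genFun, comp_apply, comp_apply]
        have hneg : ∀ c : ℕ, (M : ℤ) ∣ (((-(c : ℤ)) % M).toNat : ℤ) + c := fun c => by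
          rw [Int.toNat_of_nonneg (Int.emod_nonneg _ (by exact_mod_cast NeZero.ne M))]
          exact ⟨-((-(c : ℤ)) / M), by linarith [Int.emod_add_mul_ediv (-(c : ℤ)) M]⟩
        simp only [formFun, wpDiff]
        rw [← FermatAgent.Igusa.pDiv_neg M ((a : ℤ), 0), ← FermatAgent.Igusa.pDiv_neg M ((b : ℤ), 0)]
        congr 2 <;> refine pDiv_congr (NeZero.pos M) ?_ (by simp) _ <;> simpa using hneg _
      all_goals
        rw [h00, mul_neg, mul_one]
        rw [← Int.cast_natCast (R := ZMod M),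
          Int.toNat_of_nonneg (Int.emod_nonneg _ (by exact_mod_cast NeZero.ne M)), ZMod.intCast_mod]
        simp
  · obtain ⟨δ, e, g, c, _, _, -, hδ, -⟩ := FermatAgent.ModFun.exists_dil_smul M γ
    have : (fun τ : ℍ => genFun M a b (γ • τ)) =
        (fun σ : ℍ => formFun M ((a : ℤ), 0) ((b : ℤ), 0) (δ • σ)) ∘
          FermatAgent.ModFun.aff e g c := by
      ext τ; simp only [genFun, comp_apply, hδ]
    rw [this]
    exact (isTame_formFun (nonzeroMod_row ha) (nonzeroMod_row hb) δ).comp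
      (div_pos (Nat.cast_pos.mpr (NeZero.pos e)) (Nat.cast_pos.mpr (NeZero.pos g)))
      (FermatAgent.ModFun.aff_im e g c)

omit [NeZero M] in
theorem wpDiffCoeff_row {a b : ℕ} (ha : ¬ M ∣ a) (hb : ¬ M ∣ b) (n : ℕ) :
    wpDiffCoeff M ((a : ℤ), 0) ((b : ℤ), 0) n = (((wpSer M a - wpSer M b).coeff n : ℤ) : ℂ) := by
  have hd : ∀ c : ℕ, ¬ M ∣ c → ¬ (M : ℤ) ∣ (c : ℤ) := fun c hc h => hc (Int.natCast_dvd_natCast.mp h)
  have hto : ∀ c : ℕ, (((c : ℤ) % (M : ℤ)).toNat) = c % M := fun c => by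
    rw [← Int.natCast_emod, Int.toNat_natCast]
  simp only [wpDiffCoeff, wpCoeff, wpSer, map_sub, PowerSeries.coeff_mk]
  rcases eq_or_ne n 0 with rfl | hn
  · simp [hd a ha, hd b hb]
  · have key : ∀ c : ℕ, (FermatAgent.Igusa.arithCoeff M c (1 : ℂ) n) =
        ((FermatAgent.Igusa.arithCoeff M c (1 : ℤ) n : ℤ) : ℂ) := fun c => by
      have := FermatAgent.Igusa.map_arithCoeff (Int.castRingHom ℂ) M c (1 : ℤ) n
      simpa using this.symm
    simp only [if_neg hn, zpow_zero, inv_one, hto, key]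
    push_cast
    ring

theorem qLaurent_genFun {a b : ℕ} (ha : ¬ M ∣ a) (hb : ¬ M ∣ b) :
    qLaurent (genFun M a b) = genSer ℂ M a b := by
  have hu := nonzeroMod_row ha
  have hw := nonzeroMod_row hb
  show qExp M (formFun M ((a : ℤ), 0) ((b : ℤ), 0)) = _
  have h1 : qExp M (formFun M ((a : ℤ), 0) ((b : ℤ), 0)) =
      qExp M (wpDiff M ((a : ℤ), 0) ((b : ℤ), 0)) * qExp M e46Fun :=
    map_mul (qExpHom M)
      ⟨_, ((FermatAgent.Igusa.mem_expSubring M _).mp (FermatAgent.Igusa.wpDiff_mem_expSubring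
        hasRoots_top (Subring.mem_top _) hu hw)).1⟩
      ⟨e46Fun, FermatAgent.ModFun.mem_cuspRing_comp_dil FermatAgent.Igusa.e46Fun_mem_cuspRing M⟩
  rw [h1, FermatAgent.Igusa.qExp_wpDiff hu hw, FermatAgent.Igusa.qExp_e46Fun, genSer]
  congr 2
  ext n
  rw [PowerSeries.coeff_mk, PowerSeries.coeff_map]
  exact wpDiffCoeff_row ha hb n

theorem wpCoeff_one_row (hM : 3 ≤ M) {a : ℕ} (ha : ¬ M ∣ a) :
    wpCoeff M (zetaRoot M) ((a : ℤ), 0) 1 =
      if (a : ZMod M) = 1 ∨ (a : ZMod M) = -1 then 1 else 0 := by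
  obtain ⟨c, b, hc, h2, hpm, he⟩ := FermatAgent.Igusa.exists_normal_index (L := M) ((a : ℤ), (0 : ℤ))
  have hb : (M : ℤ) ∣ b := by rcases hpm with h | h <;> simpa using h.2
  rw [he]
  have hiff : ((a : ZMod M) = 1 ∨ (a : ZMod M) = -1) ↔ c = 1 := by
    have hcM : ∀ x y : ℕ, x < M → y < M → ((x : ZMod M) = (y : ZMod M) → x = y) := fun x y hx hy h =>
      by simpa [ZMod.natCast_eq_natCast_iff', Nat.mod_eq_of_lt hx, Nat.mod_eq_of_lt hy] using h
    have hpm' : (a : ZMod M) = (c : ZMod M) ∨ (a : ZMod M) = -(c : ZMod M) := by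
      rcases hpm with h | h
      · exact Or.inl (by simpa [dvd_cast_iff] using h.1)
      · refine Or.inr ?_
        have := (ZMod.intCast_zmod_eq_zero_iff_dvd _ _).mpr h.1
        simpa [add_eq_zero_iff_eq_neg] using this
    constructor
    · intro h
      have key : (c : ZMod M) = ((1 : ℕ) : ZMod M) ∨ (c : ZMod M) = ((M - 1 : ℕ) : ZMod M) := by
        have hm1 : ((M - 1 : ℕ) : ZMod M) = -1 := by
          rw [Nat.cast_sub (by omega)]; simp
        rw [hm1, Nat.cast_one]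
        rcases h with h | h <;> rcases hpm' with h' | h' <;> rw [h] at h'
        · exact Or.inl h'.symm
        · exact Or.inr (by rw [eq_neg_iff_add_eq_zero, add_comm, ← eq_neg_iff_add_eq_zero]; exact h')
        · exact Or.inr h'.symm
        · exact Or.inl (neg_injective h').symm
      rcases key with h | h
      · exact hcM c 1 (by omega) (by omega) h
      · have := hcM c (M - 1) (by omega) (by omega) h
        omega
    · rintro rfl
      simpa using hpm'
  by_cases hc1 : c = 1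
  · rw [if_pos (hiff.mpr hc1)]
    subst hc1
    rw [FermatAgent.Igusa.wpCoeff_self b one_pos (by omega), if_neg (by omega), add_zero]
    obtain ⟨k, rfl⟩ := hb
    rw [zetaRoot, ← FermatAgent.Igusa.expTwoPi_intMul,
      show (((M : ℤ) * k : ℤ) : ℂ) * (M : ℂ)⁻¹ = (k : ℂ) by
        push_cast; field_simp [NeZero.ne M],
      FermatAgent.Igusa.expTwoPi_intCast]
  · rw [if_neg (mt hiff.mp hc1)]
    rcases Nat.lt_or_gt_of_ne hc1 with h | h
    · exfalso
      have hc0 : c = 0 := by omega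
      subst hc0
      apply ha
      rcases hpm with h | h <;> simpa [Int.natCast_dvd_natCast] using h.1
    · exact FermatAgent.Igusa.wpCoeff_of_lt b h2 one_pos h

/-- The elements fixing `j (M τ)` and all the generators form `±Γ₁(M)`. -/
theorem mem_gam_of_fix (hM : 5 ≤ M) {γ : SL(2, ℤ)}
    (hj : ∀ τ, FermatAgent.ModFun.jd M (γ • τ) = FermatAgent.ModFun.jd M τ)
    (h : ∀ a b : ℕ, ¬ M ∣ a → ¬ M ∣ b → ∀ τ, genFun M a b (γ • τ) = genFun M a b τ) :
    γ ∈ gam M := by
  have h0 := (FermatAgent.ModFun.jd_smul_eq_iff M γ).mp hj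
  have hdet := cast_det_gamma0 h0
  set α : ℕ := ((γ 0 0 : ℤ) % M).toNat with hαdef
  have hα : (α : ZMod M) = ((γ 0 0 : ℤ) : ZMod M) := by
    rw [← Int.cast_natCast (R := ZMod M), hαdef,
      Int.toNat_of_nonneg (Int.emod_nonneg _ (by exact_mod_cast NeZero.ne M)), ZMod.intCast_mod]
  have : Fact (1 < M) := ⟨by omega⟩
  have hα0 : ¬ M ∣ α := fun hd => by
    rw [← hα, (ZMod.natCast_eq_zero_iff _ _).mpr hd, zero_mul] at hdet
    exact zero_ne_one hdet
  have h2 : ¬ M ∣ 2 := fun hd => by have := Nat.le_of_dvd two_pos hd; omega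
  have h1 : ¬ M ∣ 1 := fun hd => by have := Nat.le_of_dvd one_pos hd; omega
  have h2α : ¬ M ∣ 2 * α := fun hd => by
    have e := (ZMod.natCast_eq_zero_iff _ _).mpr hd
    rw [Nat.cast_mul, hα] at e
    have : (((2 : ℕ) : ZMod M)) = 0 := by
      rw [← mul_one ((2 : ℕ) : ZMod M), ← hdet, ← mul_assoc, e, zero_mul]
    exact h2 ((ZMod.natCast_eq_zero_iff _ _).mp this)
  have hfun : genFun M α (2 * α) = genFun M 1 2 := funext fun τ =>
    (genFun_smul h0 (by simp [hα]) (by simp [hα]) τ).symm.trans (h 1 2 h1 h2 τ)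
  have hser : genSer ℂ M α (2 * α) = genSer ℂ M 1 2 := by
    rw [← qLaurent_genFun hα0 h2α, ← qLaurent_genFun h1 h2, hfun]
  have he : qExpand ℂ M (e46Ser ℂ) ≠ 0 := fun h0' => by
    have := congrArg (fun z : LaurentSeries ℂ => z.coeff ((M : ℤ) * (-1))) h0'
    simp only [ModularCurve.qExpand_coeff_mul, (FermatAgent.Igusa.e46Ser_lead ℂ).2,
      HahnSeries.coeff_zero] at this
    exact one_ne_zero this
  have hc := congrArg (fun z : LaurentSeries ℂ => z.coeff ((1 : ℕ) : ℤ)) (mul_right_cancel₀ he hser)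
  simp only [HahnSeries.ofPowerSeries_apply_coeff, PowerSeries.coeff_map] at hc
  rw [eq_intCast, eq_intCast, ← wpDiffCoeff_row hα0 h2α, ← wpDiffCoeff_row h1 h2, wpDiffCoeff,
    wpDiffCoeff, wpCoeff_one_row (by omega) hα0, wpCoeff_one_row (by omega) h2α,
    wpCoeff_one_row (by omega) h1, wpCoeff_one_row (by omega) h2] at hc
  have e2 : ¬ (((2 : ℕ) : ZMod M) = 1 ∨ ((2 : ℕ) : ZMod M) = -1) := by
    rintro (e | e)
    · rw [← Nat.cast_one, ZMod.natCast_eq_natCast_iff', Nat.mod_eq_of_lt (by omega),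
        Nat.mod_eq_of_lt (by omega)] at e
      omega
    · rw [eq_neg_iff_add_eq_zero, ← Nat.cast_one, ← Nat.cast_add,
        ZMod.natCast_eq_zero_iff] at e
      have := Nat.le_of_dvd (by omega) e
      omega
  rw [if_pos (Or.inl Nat.cast_one), if_neg e2] at hc
  have key : (α : ZMod M) = 1 ∨ (α : ZMod M) = -1 := by
    by_contra hk
    rw [if_neg hk] at hc
    split_ifs at hc <;> norm_num at hc
  refine ⟨h0, ?_⟩
  rw [← hα] at hdet
  rcases key with e | e <;> rw [e] at hdet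
  · exact Or.inl (by simpa using hdet)
  · exact Or.inr (by rw [← neg_eq_iff_eq_neg]; simpa using hdet)

end FermatAgent.DeligneSerre.X1
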